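import Mathlib.AlgebraicGeometry.EllipticCurve.Affine.Point
import Mathlib.RingTheory.Valuation.ValuationSubring

set_option autoImplicit false

/-!
# F2: points with the same nonsingular reduction differ by an element of the kernel of reduction

Generic statement over a field `K` with a valuation subring `A` and a Weierstrass curve `W` over
`K` with `A`-integral coefficients.  No discreteness or completeness is assumed.
-/

namespace Fermat.Agent.H8

open WeierstrassCurve WeierstrassCurve.Affine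

variable {K : Type*} [Field K]

section val

variable (A : ValuationSubring K)

/-- `x ∈ A` iff `v x ≤ 1`. -/
theorem val_le_one_iff {x : K} : A.valuation x ≤ 1 ↔ x ∈ A := A.valuation_le_one_iff x

theorem val_lt_one_iff {x : K} : A.valuation x < 1 ↔ x ∈ A.nonunits :=
  (ValuationSubring.mem_nonunits_iff (A := A)).symm

theorem not_mem_iff_one_lt_val {x : K} : x ∉ A ↔ 1 < A.valuation x := by
  rw [← val_le_one_iff, not_le]

/-- An element of `A` which is not a nonunit has valuation one. -/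
theorem val_eq_one_of_mem_of_not_nonunit {x : K} (hx : x ∈ A) (hx' : x ∉ A.nonunits) :
    A.valuation x = 1 := by
  rw [← val_le_one_iff] at hx
  rw [← val_lt_one_iff, not_lt] at hx'
  exact le_antisymm hx hx'

/-- If `x ≡ y mod 𝔪` and `y` is a unit of `A`, then so is `x` (valuation form). -/
theorem val_eq_one_of_sub_mem_nonunits {x y : K} (hxy : x - y ∈ A.nonunits)
    (hy : A.valuation y = 1) : A.valuation x = 1 := by
  have h1 : A.valuation (x - y) < A.valuation y := by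
    rw [hy]; exact (val_lt_one_iff A).2 hxy
  have := Valuation.map_add_eq_of_lt_left (v := A.valuation) (x := y) (y := x - y) h1
  simpa [hy] using this

/-- The valuation of `ℓ² + a₁ℓ - a₂ - x₁ - x₂` when `ℓ` is not integral. -/
theorem val_addX_of_one_lt {a₁ a₂ x₁ x₂ ℓ : K} (ha₁ : a₁ ∈ A) (ha₂ : a₂ ∈ A) (hx₁ : x₁ ∈ A)
    (hx₂ : x₂ ∈ A) (hℓ : 1 < A.valuation ℓ) :
    A.valuation (ℓ ^ 2 + a₁ * ℓ - a₂ - x₁ - x₂) = A.valuation ℓ ^ 2 := by
  set v := A.valuation with hv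
  have hℓ0 : 0 < v ℓ := lt_trans zero_lt_one hℓ
  have h1 : v (a₁ * ℓ) < v (ℓ ^ 2) := by
    rw [map_mul, map_pow, pow_two]
    have ha : v a₁ ≤ 1 := (val_le_one_iff A).2 ha₁
    calc v a₁ * v ℓ ≤ 1 * v ℓ := by gcongr
      _ = v ℓ := one_mul _
      _ = v ℓ * 1 := (mul_one _).symm
      _ < v ℓ * v ℓ := by
        exact mul_lt_mul_of_pos_left hℓ hℓ0
  have hrest : a₂ + x₁ + x₂ ∈ A := A.add_mem _ _ (A.add_mem _ _ ha₂ hx₁) hx₂
  have h2 : v (a₂ + x₁ + x₂) < v (ℓ ^ 2) := by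
    have : v (a₂ + x₁ + x₂) ≤ 1 := (val_le_one_iff A).2 hrest
    refine lt_of_le_of_lt this ?_
    rw [map_pow]
    exact one_lt_pow₀ hℓ two_ne_zero
  have h3 : v (ℓ ^ 2 + a₁ * ℓ) = v (ℓ ^ 2) := Valuation.map_add_eq_of_lt_left v h1
  have h4 : v (ℓ ^ 2 + a₁ * ℓ - (a₂ + x₁ + x₂)) = v (ℓ ^ 2 + a₁ * ℓ) := by
    apply Valuation.map_sub_eq_of_lt_left
    rw [h3]; exact h2
  have : ℓ ^ 2 + a₁ * ℓ - a₂ - x₁ - x₂ = ℓ ^ 2 + a₁ * ℓ - (a₂ + x₁ + x₂) := by ring
  rw [this, h4, h3, map_pow]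

theorem addX_not_mem_of_one_lt {a₁ a₂ x₁ x₂ ℓ : K} (ha₁ : a₁ ∈ A) (ha₂ : a₂ ∈ A) (hx₁ : x₁ ∈ A)
    (hx₂ : x₂ ∈ A) (hℓ : 1 < A.valuation ℓ) :
    ℓ ^ 2 + a₁ * ℓ - a₂ - x₁ - x₂ ∉ A := by
  rw [not_mem_iff_one_lt_val, val_addX_of_one_lt A ha₁ ha₂ hx₁ hx₂ hℓ]
  exact one_lt_pow₀ hℓ two_ne_zero

/-- A quotient of a unit by a nonzero nonunit has valuation `> 1`. -/
theorem one_lt_val_div {n d : K} (hn : A.valuation n = 1) (hd : d ∈ A.nonunits) (hd0 : d ≠ 0) :
    1 < A.valuation (n / d) := by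
  rw [map_div₀, hn]
  have hd1 : A.valuation d < 1 := (val_lt_one_iff A).2 hd
  have hdpos : 0 < A.valuation d := by
    rw [Valuation.pos_iff]; exact hd0
  rw [one_div]
  exact (one_lt_inv₀ hdpos).2 hd1

end val

end Fermat.Agent.H8

namespace Fermat.Agent.H8

open WeierstrassCurve WeierstrassCurve.Affine

variable {K : Type*} [Field K] [DecidableEq K]

/-- **F2 (core)**. Let `W` be a Weierstrass curve with `A`-integral `a₁, a₂` over a field `K` with
valuation subring `A`.  Let `(x₁, y₁)`, `(x₂, y₂)` be nonsingular `A`-integral points of `W` that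
are congruent modulo the maximal ideal, and assume that the common reduction is a nonsingular
point of the reduced curve (one of the two partial derivatives at `(x₂, y₂)` is a unit).
Then `(x₁, y₁) - (x₂, y₂)` is either `0` or a point whose `x`-coordinate is not in `A`
(i.e. it lies in the kernel of reduction). -/
theorem sub_eq_zero_or_X_not_mem_of_reduction_eq (A : ValuationSubring K)
    (W : WeierstrassCurve K) (ha₁ : W.a₁ ∈ A) (ha₂ : W.a₂ ∈ A) (ha₃ : W.a₃ ∈ A) (ha₄ : W.a₄ ∈ A)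
    {x₁ y₁ x₂ y₂ : K} (h₁ : W.toAffine.Nonsingular x₁ y₁) (h₂ : W.toAffine.Nonsingular x₂ y₂)
    (hx₁ : x₁ ∈ A) (hx₂ : x₂ ∈ A) (hy₂ : y₂ ∈ A)
    (hx : x₁ - x₂ ∈ A.nonunits) (hy : y₁ - y₂ ∈ A.nonunits)
    (hns : W.a₁ * y₂ - (3 * x₂ ^ 2 + 2 * W.a₂ * x₂ + W.a₄) ∉ A.nonunits ∨
      2 * y₂ + W.a₁ * x₂ + W.a₃ ∉ A.nonunits) :
    Point.some x₁ y₁ h₁ - Point.some x₂ y₂ h₂ = 0 ∨
    ∃ (x₃ y₃ : K) (h₃ : W.toAffine.Nonsingular x₃ y₃),
      Point.some x₁ y₁ h₁ - Point.some x₂ y₂ h₂ = Point.some x₃ y₃ h₃ ∧ x₃ ∉ A := by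
  classical
  set v := A.valuation with hv
  -- the two equations
  have e₁ := (W.toAffine.equation_iff x₁ y₁).1 h₁.1
  have e₂ := (W.toAffine.equation_iff x₂ y₂).1 h₂.1
  -- key identity obtained by subtracting the two equations
  have key : (y₁ + y₂ + W.a₁ * x₂ + W.a₃) * (y₁ - y₂) =
      (x₁ - x₂) * (x₁ ^ 2 + x₁ * x₂ + x₂ ^ 2 + W.a₂ * (x₁ + x₂) + W.a₄ - W.a₁ * y₁) := by
    linear_combination e₁ - e₂
  -- abbreviations
  set N := y₁ + y₂ + W.a₁ * x₂ + W.a₃ with hN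
  set M := x₁ ^ 2 + x₁ * x₂ + x₂ ^ 2 + W.a₂ * (x₁ + x₂) + W.a₄ - W.a₁ * y₁ with hM
  -- congruences of `N` and `M` with the partial derivatives
  have hNcong : N - (2 * y₂ + W.a₁ * x₂ + W.a₃) ∈ A.nonunits := by
    have : N - (2 * y₂ + W.a₁ * x₂ + W.a₃) = y₁ - y₂ := by rw [hN]; ring
    rw [this]; exact hy
  have hMcong : M - (-(W.a₁ * y₂ - (3 * x₂ ^ 2 + 2 * W.a₂ * x₂ + W.a₄))) ∈ A.nonunits := by
    have : M - (-(W.a₁ * y₂ - (3 * x₂ ^ 2 + 2 * W.a₂ * x₂ + W.a₄))) =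
        (x₁ - x₂) * (x₁ + 2 * x₂ + W.a₂) - W.a₁ * (y₁ - y₂) := by rw [hM]; ring
    rw [this]
    refine sub_mem ?_ ?_
    · have hmem : x₁ + 2 * x₂ + W.a₂ ∈ A :=
        A.add_mem _ _ (A.add_mem _ _ hx₁ (A.mul_mem _ _ (by
          have : (2 : K) = 1 + 1 := by norm_num
          rw [this]; exact A.add_mem _ _ A.one_mem A.one_mem) hx₂)) ha₂
      rw [ValuationSubring.mem_nonunits_iff] at hx ⊢
      rw [map_mul]
      have := (val_le_one_iff A).2 hmem
      calc A.valuation (x₁ - x₂) * A.valuation (x₁ + 2 * x₂ + W.a₂)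
          ≤ A.valuation (x₁ - x₂) * 1 := by gcongr
        _ = A.valuation (x₁ - x₂) := mul_one _
        _ < 1 := hx
    · rw [ValuationSubring.mem_nonunits_iff] at hy ⊢
      rw [map_mul]
      have := (val_le_one_iff A).2 ha₁
      calc A.valuation W.a₁ * A.valuation (y₁ - y₂)
          ≤ 1 * A.valuation (y₁ - y₂) := by gcongr
        _ = A.valuation (y₁ - y₂) := one_mul _
        _ < 1 := hy
  -- integrality of the partial derivatives
  have h2A : (2 : K) ∈ A := by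
    have : (2 : K) = 1 + 1 := by norm_num
    rw [this]; exact A.add_mem _ _ A.one_mem A.one_mem
  have h3A : (3 : K) ∈ A := by
    have : (3 : K) = 2 + 1 := by norm_num
    rw [this]; exact A.add_mem _ _ h2A A.one_mem
  have hWY_mem : 2 * y₂ + W.a₁ * x₂ + W.a₃ ∈ A :=
    A.add_mem _ _ (A.add_mem _ _ (A.mul_mem _ _ h2A hy₂) (A.mul_mem _ _ ha₁ hx₂)) ha₃
  have hWX_mem : W.a₁ * y₂ - (3 * x₂ ^ 2 + 2 * W.a₂ * x₂ + W.a₄) ∈ A :=
    sub_mem (A.mul_mem _ _ ha₁ hy₂)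
      (A.add_mem _ _ (A.add_mem _ _ (A.mul_mem _ _ h3A (pow_mem hx₂ 2))
        (A.mul_mem _ _ (A.mul_mem _ _ h2A ha₂) hx₂)) ha₄)
  -- the point `-P₂`
  have hneg : -Point.some x₂ y₂ h₂ = Point.some x₂ (W.toAffine.negY x₂ y₂)
      ((W.toAffine.nonsingular_neg ..).mpr h₂) := rfl
  rw [sub_eq_add_neg, hneg]
  by_cases hP : x₁ = x₂ ∧ y₁ = y₂
  · -- the two points agree
    left
    obtain ⟨rfl, rfl⟩ := hP
    exact Point.add_of_Y_eq rfl (W.toAffine.negY_negY x₁ y₁).symm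
  right
  have hxy : ¬(x₁ = x₂ ∧ y₁ = W.toAffine.negY x₂ (W.toAffine.negY x₂ y₂)) := by
    rw [W.toAffine.negY_negY]; exact hP
  refine ⟨_, _, W.toAffine.nonsingular_add h₁ ((W.toAffine.nonsingular_neg ..).mpr h₂) hxy,
    Point.add_some hxy, ?_⟩
  -- it remains to show the slope has valuation `> 1`
  have hslope : 1 < v (W.toAffine.slope x₁ x₂ y₁ (W.toAffine.negY x₂ y₂)) := by
    by_cases hxx : x₁ = x₂
    · -- tangent-type case: `x₁ = x₂`, `y₁ ≠ y₂`
      have hyy : y₁ ≠ y₂ := fun h => hP ⟨hxx, h⟩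
      have hy₁neg : y₁ = W.toAffine.negY x₂ y₂ :=
        (W.toAffine.Y_eq_of_X_eq h₁.1 h₂.1 hxx).resolve_left hyy
      have hyne : y₁ ≠ W.toAffine.negY x₂ (W.toAffine.negY x₂ y₂) := by
        rw [W.toAffine.negY_negY]; exact hyy
      rw [W.toAffine.slope_of_Y_ne hxx hyne]
      -- denominator is `y₁ - y₂`
      have hden : y₁ - W.toAffine.negY x₁ y₁ = y₁ - y₂ := by
        have : W.toAffine.negY x₁ y₁ = y₂ := by
          rw [hxx, hy₁neg, W.toAffine.negY_negY]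
        rw [this]
      rw [hden]
      -- `W_Y(x₂, y₂) = y₂ - y₁` is a nonunit, so `W_X(x₂, y₂)` is a unit
      have hWY : 2 * y₂ + W.a₁ * x₂ + W.a₃ ∈ A.nonunits := by
        have : 2 * y₂ + W.a₁ * x₂ + W.a₃ = -(y₁ - y₂) := by
          rw [hy₁neg]; simp only [negY]; ring
        rw [this]; exact neg_mem hy
      have hWX : W.a₁ * y₂ - (3 * x₂ ^ 2 + 2 * W.a₂ * x₂ + W.a₄) ∉ A.nonunits :=
        hns.resolve_right (fun h => h hWY)
      have hWXval : v (-(W.a₁ * y₂ - (3 * x₂ ^ 2 + 2 * W.a₂ * x₂ + W.a₄))) = 1 := by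
        rw [Valuation.map_neg]
        exact val_eq_one_of_mem_of_not_nonunit A hWX_mem hWX
      -- numerator is congruent to `-W_X(x₂, y₂)`
      have hnum : 3 * x₁ ^ 2 + 2 * W.a₂ * x₁ + W.a₄ - W.a₁ * y₁ -
          (-(W.a₁ * y₂ - (3 * x₂ ^ 2 + 2 * W.a₂ * x₂ + W.a₄))) ∈ A.nonunits := by
        have : 3 * x₁ ^ 2 + 2 * W.a₂ * x₁ + W.a₄ - W.a₁ * y₁ -
            (-(W.a₁ * y₂ - (3 * x₂ ^ 2 + 2 * W.a₂ * x₂ + W.a₄))) = -(W.a₁ * (y₁ - y₂)) := by
          rw [hxx]; ring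
        rw [this]
        refine neg_mem ?_
        rw [ValuationSubring.mem_nonunits_iff] at hy ⊢
        rw [map_mul]
        have := (val_le_one_iff A).2 ha₁
        calc A.valuation W.a₁ * A.valuation (y₁ - y₂)
            ≤ 1 * A.valuation (y₁ - y₂) := by gcongr
          _ = A.valuation (y₁ - y₂) := one_mul _
          _ < 1 := hy
      have hnumval := val_eq_one_of_sub_mem_nonunits A hnum hWXval
      exact one_lt_val_div A hnumval hy (sub_ne_zero.2 hyy)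
    · -- chord case
      rw [W.toAffine.slope_of_X_ne hxx]
      have hnumN : y₁ - W.toAffine.negY x₂ y₂ = N := by
        rw [hN]; simp only [negY]; ring
      rw [hnumN]
      have hD0 : x₁ - x₂ ≠ 0 := sub_ne_zero.2 hxx
      by_cases hWY : 2 * y₂ + W.a₁ * x₂ + W.a₃ ∈ A.nonunits
      · -- `W_X` is a unit; use the second expression of the slope
        have hWX : W.a₁ * y₂ - (3 * x₂ ^ 2 + 2 * W.a₂ * x₂ + W.a₄) ∉ A.nonunits :=
          hns.resolve_right (fun h => h hWY)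
        have hWXval : v (-(W.a₁ * y₂ - (3 * x₂ ^ 2 + 2 * W.a₂ * x₂ + W.a₄))) = 1 := by
          rw [Valuation.map_neg]
          exact val_eq_one_of_mem_of_not_nonunit A hWX_mem hWX
        have hMval : v M = 1 := val_eq_one_of_sub_mem_nonunits A hMcong hWXval
        have hM0 : M ≠ 0 := by
          intro h; rw [h, map_zero] at hMval; exact zero_ne_one hMval
        have hyy : y₁ - y₂ ≠ 0 := by
          intro h
          rw [h, mul_zero] at key
          exact (mul_ne_zero hD0 hM0) key.symm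
        have hslope_eq : N / (x₁ - x₂) = M / (y₁ - y₂) := by
          rw [div_eq_div_iff hD0 hyy, key]; ring
        rw [hslope_eq]
        exact one_lt_val_div A hMval hy hyy
      · -- `W_Y` is a unit, so is `N`
        have hWYval : v (2 * y₂ + W.a₁ * x₂ + W.a₃) = 1 :=
          val_eq_one_of_mem_of_not_nonunit A hWY_mem hWY
        have hNval : v N = 1 := val_eq_one_of_sub_mem_nonunits A hNcong hWYval
        exact one_lt_val_div A hNval hx hD0
  simp only [addX]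
  exact addX_not_mem_of_one_lt A ha₁ ha₂ hx₁ hx₂ hslope

end Fermat.Agent.H8

namespace Fermat.Agent.H8

open WeierstrassCurve WeierstrassCurve.Affine

variable {K : Type*} [Field K] [DecidableEq K]

/-- **FS (core, scaled version of F2)**. Let `(x₁, y₁)`, `(x₂, y₂)` be nonsingular points of `W`
with `A`-integral `x`-coordinates such that both `x₁ - x₂` and `y₁ - y₂` have valuation strictly
smaller than the valuation of the partial derivative `W_Y(x₂, y₂) = 2 y₂ + a₁ x₂ + a₃`.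
Then `(x₁, y₁) - (x₂, y₂)` is `0` or lies in the kernel of reduction.
(This applies to points reducing to a node, of "type N", where `|W_Y| = |x₂|`.) -/
theorem sub_eq_zero_or_X_not_mem_of_val_lt (A : ValuationSubring K)
    (W : WeierstrassCurve K) (ha₁ : W.a₁ ∈ A) (ha₂ : W.a₂ ∈ A)
    {x₁ y₁ x₂ y₂ : K} (h₁ : W.toAffine.Nonsingular x₁ y₁) (h₂ : W.toAffine.Nonsingular x₂ y₂)
    (hx₁ : x₁ ∈ A) (hx₂ : x₂ ∈ A)
    (hx : A.valuation (x₁ - x₂) < A.valuation (2 * y₂ + W.a₁ * x₂ + W.a₃))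
    (hy : A.valuation (y₁ - y₂) < A.valuation (2 * y₂ + W.a₁ * x₂ + W.a₃)) :
    Point.some x₁ y₁ h₁ - Point.some x₂ y₂ h₂ = 0 ∨
    ∃ (x₃ y₃ : K) (h₃ : W.toAffine.Nonsingular x₃ y₃),
      Point.some x₁ y₁ h₁ - Point.some x₂ y₂ h₂ = Point.some x₃ y₃ h₃ ∧ x₃ ∉ A := by
  classical
  set v := A.valuation with hv
  have hneg : -Point.some x₂ y₂ h₂ = Point.some x₂ (W.toAffine.negY x₂ y₂)
      ((W.toAffine.nonsingular_neg ..).mpr h₂) := rfl
  rw [sub_eq_add_neg, hneg]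
  by_cases hP : x₁ = x₂ ∧ y₁ = y₂
  · left
    obtain ⟨rfl, rfl⟩ := hP
    exact Point.add_of_Y_eq rfl (W.toAffine.negY_negY x₁ y₁).symm
  right
  have hxy : ¬(x₁ = x₂ ∧ y₁ = W.toAffine.negY x₂ (W.toAffine.negY x₂ y₂)) := by
    rw [W.toAffine.negY_negY]; exact hP
  refine ⟨_, _, W.toAffine.nonsingular_add h₁ ((W.toAffine.nonsingular_neg ..).mpr h₂) hxy,
    Point.add_some hxy, ?_⟩
  have hxx : x₁ ≠ x₂ := by
    intro hxx
    have hyy : y₁ ≠ y₂ := fun h => hP ⟨hxx, h⟩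
    have hy₁neg : y₁ = W.toAffine.negY x₂ y₂ :=
      (W.toAffine.Y_eq_of_X_eq h₁.1 h₂.1 hxx).resolve_left hyy
    have : y₁ - y₂ = -(2 * y₂ + W.a₁ * x₂ + W.a₃) := by
      rw [hy₁neg]; simp only [negY]; ring
    rw [this, Valuation.map_neg] at hy
    exact lt_irrefl _ hy
  have hslope : 1 < v (W.toAffine.slope x₁ x₂ y₁ (W.toAffine.negY x₂ y₂)) := by
    rw [W.toAffine.slope_of_X_ne hxx]
    have hnumN : y₁ - W.toAffine.negY x₂ y₂ = (2 * y₂ + W.a₁ * x₂ + W.a₃) + (y₁ - y₂) := by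
      simp only [negY]; ring
    rw [hnumN, map_div₀, Valuation.map_add_eq_of_lt_left v hy]
    have hD0 : x₁ - x₂ ≠ 0 := sub_ne_zero.2 hxx
    have hDpos : 0 < v (x₁ - x₂) := by rw [Valuation.pos_iff]; exact hD0
    rw [lt_div_iff₀ hDpos, one_mul]
    exact hx
  simp only [addX]
  exact addX_not_mem_of_one_lt A ha₁ ha₂ hx₁ hx₂ hslope

end Fermat.Agent.H8
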