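import Mathlib.RingTheory.Valuation.RamificationGroup
import Mathlib.RingTheory.Valuation.ValuationSubring
import Fermat.Prelude.Def_FLTPrelim_Ramification

set_option autoImplicit false

namespace Fermat.Agent.H8

open ValuationSubring
open scoped Pointwise

variable {K L : Type*} [Field K] [Field L] [Algebra K L]

/-- An element of the inertia subgroup (as a subgroup of the full Galois group) lies in the
decomposition subgroup. -/
theorem mem_decomposition_of_mem_inertiaSubgroupIn (A : ValuationSubring L) {σ : L ≃ₐ[K] L}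
    (hσ : σ ∈ A.inertiaSubgroupIn K) : σ ∈ A.decompositionSubgroup K := by
  obtain ⟨τ, _, rfl⟩ := hσ
  exact τ.2

/-- Elements of the decomposition group preserve the valuation ring. -/
theorem apply_mem_of_mem_decomposition (A : ValuationSubring L) {σ : L ≃ₐ[K] L}
    (hσ : σ ∈ A.decompositionSubgroup K) {x : L} (hx : x ∈ A) : σ x ∈ A := by
  have h : σ • A = A := hσ
  have : σ • x ∈ σ • A := ValuationSubring.smul_mem_pointwise_smul σ x A hx
  rw [h] at this
  exact this

/-- Elements of the decomposition group preserve the valuation ring (iff version). -/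
theorem apply_mem_iff_of_mem_decomposition (A : ValuationSubring L) {σ : L ≃ₐ[K] L}
    (hσ : σ ∈ A.decompositionSubgroup K) {x : L} : σ x ∈ A ↔ x ∈ A := by
  refine ⟨fun h => ?_, apply_mem_of_mem_decomposition A hσ⟩
  have hinv : σ⁻¹ ∈ A.decompositionSubgroup K := inv_mem hσ
  have := apply_mem_of_mem_decomposition A hinv h
  simpa using this

/-- Elements of the inertia group act trivially modulo the maximal ideal. -/
theorem apply_sub_mem_nonunits_of_mem_inertia (A : ValuationSubring L) {σ : L ≃ₐ[K] L}
    (hσ : σ ∈ A.inertiaSubgroupIn K) {x : L} (hx : x ∈ A) : σ x - x ∈ A.nonunits := by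
  obtain ⟨τ, hτ, rfl⟩ := hσ
  have hker : MulSemiringAction.toRingAut (A.decompositionSubgroup K)
      (IsLocalRing.ResidueField A) τ = 1 := hτ
  have h1 : (MulSemiringAction.toRingAut (A.decompositionSubgroup K)
      (IsLocalRing.ResidueField A) τ) (IsLocalRing.residue A ⟨x, hx⟩)
      = IsLocalRing.residue A ⟨x, hx⟩ := by
    rw [hker]; rfl
  have h2 : IsLocalRing.residue A (τ • (⟨x, hx⟩ : A)) = IsLocalRing.residue A ⟨x, hx⟩ := h1
  have h3 : (τ • (⟨x, hx⟩ : A)) - ⟨x, hx⟩ ∈ IsLocalRing.maximalIdeal A := by
    rw [← Ideal.Quotient.eq]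
    exact h2
  rw [ValuationSubring.valuation_lt_one_iff] at h3
  rw [ValuationSubring.mem_nonunits_iff]
  exact h3

end Fermat.Agent.H8
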