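import Mathlib.RingTheory.Invariant.Profinite
import Mathlib.FieldTheory.Galois.Profinite
import Mathlib.FieldTheory.Galois.Infinite
import Mathlib.FieldTheory.KrullTopology
import Mathlib.RingTheory.Valuation.RamificationGroup
import Fermat.Prelude.Def_FLTPrelim_Ramification
import Fermat.Agent.H53.FrobeniusExists
import Fermat.Agent.H8.InertiaBasic

/-!
# Relative decomposition theory for valuation subrings of a Galois extension of `ℚ`

Let `L/ℚ` be a (possibly infinite) Galois extension, `H` a closed subgroup of `Gal(L/ℚ)`.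

* `exists_mem_smul_eq` : if two valuation subrings `V`, `V'` of `L` (over a prime `ℓ`) have the
  same nonunits among the `H`-fixed elements, then `V' = g • V` for some `g ∈ H`.
* `exists_mem_residue_eq` : if `σ₀` lies in the decomposition group of `V` and acts trivially on
  the residue classes of `H`-fixed elements, there is `δ ∈ H` in the decomposition group of `V`
  inducing the same automorphism of the residue field as `σ₀`.
* `exists_mem_inertia_mul_eq` : hence `σ₀ = δ * τ` with `δ ∈ H`, `τ` in the inertia group.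
-/

set_option autoImplicit false
set_option linter.style.haveILetI false

namespace Fermat.Agent.H8

open Fermat.Agent.H53
open scoped Pointwise

section Relative

variable {L : Type*} [Field L] [Algebra ℚ L]

/-- If `τ` maps the center of `V` to the center of `V'`, it maps units of `V` among the algebraic
integers to units of `V'`. -/
theorem not_mem_nonunits_map_of_smul_centerIdeal_eq' (V V' : ValuationSubring L)
    (τ : L ≃ₐ[ℚ] L) (hτ : τ • centerIdeal V = centerIdeal V') {s : intRing L}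
    (hs : (s : L) ∉ V.nonunits) : τ (s : L) ∉ V'.nonunits := by
  intro h
  apply hs
  have h1 : τ • s ∈ centerIdeal V' := h
  rw [← hτ, Ideal.smul_mem_pointwise_smul_iff] at h1
  exact h1

/-- If `τ` maps the center of `V` to the center of `V'`, it maps `V` into `V'`. -/
theorem map_mem_of_smul_centerIdeal_eq' [Algebra.IsAlgebraic ℚ L] {ℓ : ℕ} (hℓ : ℓ.Prime)
    (V V' : ValuationSubring L) (hV : (ℓ : L) ∈ V.nonunits) (τ : L ≃ₐ[ℚ] L)
    (hτ : τ • centerIdeal V = centerIdeal V') {x : L} (hx : x ∈ V) : τ x ∈ V' := by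
  obtain ⟨s, b, hs, hb⟩ := exists_intRing_fraction hℓ V hV hx
  have hτs : τ (s : L) ∉ V'.nonunits := not_mem_nonunits_map_of_smul_centerIdeal_eq' V V' τ hτ hs
  obtain ⟨hτs0, hτsinv⟩ := inv_mem_of_not_mem_nonunits V' hτs
  have hτb : τ (b : L) ∈ V' := intRing_le V' (τ • b).2
  have : τ x = (τ (s : L))⁻¹ * τ (b : L) := by
    rw [hb, map_mul]
    field_simp
  rw [this]
  exact mul_mem hτsinv hτb

/-- If `τ` maps the center of `V` to the center of `V'` (both over `ℓ`), then `τ • V = V'`. -/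
theorem smul_eq_of_smul_centerIdeal_eq [Algebra.IsAlgebraic ℚ L] {ℓ : ℕ} (hℓ : ℓ.Prime)
    (V V' : ValuationSubring L) (hV : (ℓ : L) ∈ V.nonunits) (hV' : (ℓ : L) ∈ V'.nonunits)
    (τ : L ≃ₐ[ℚ] L) (hτ : τ • centerIdeal V = centerIdeal V') : τ • V = V' := by
  have hτinv : τ⁻¹ • centerIdeal V' = centerIdeal V := by
    rw [← hτ, inv_smul_smul]
  ext x
  rw [ValuationSubring.mem_pointwise_smul_iff_inv_smul_mem]
  constructor
  · intro h
    have := map_mem_of_smul_centerIdeal_eq' hℓ V V' hV τ hτ h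
    rwa [← AlgEquiv.smul_def, smul_inv_smul] at this
  · intro h
    exact map_mem_of_smul_centerIdeal_eq' hℓ V' V hV' τ⁻¹ hτinv h

/-- the ring of `H`-fixed algebraic integers -/
abbrev fixInt (H : Subgroup (L ≃ₐ[ℚ] L)) : Subalgebra ℤ (intRing L) :=
  FixedPoints.subalgebra ℤ (intRing L) H

theorem mem_fixInt_iff (H : Subgroup (L ≃ₐ[ℚ] L)) (b : intRing L) :
    b ∈ fixInt H ↔ ∀ g ∈ H, g (b : L) = b := by
  constructor
  · intro hb g hg
    have := hb ⟨g, hg⟩
    exact congrArg Subtype.val this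
  · intro hb g
    exact Subtype.ext (hb g.1 g.2)

instance fixInt_isInvariant (H : Subgroup (L ≃ₐ[ℚ] L)) :
    Algebra.IsInvariant (fixInt H) (intRing L) H :=
  ⟨fun b hb => ⟨⟨b, hb⟩, rfl⟩⟩

theorem subgroup_continuousSMul [Algebra.IsIntegral ℚ L] (H : Subgroup (L ≃ₐ[ℚ] L)) :
    letI : TopologicalSpace (intRing L) := ⊥
    ContinuousSMul H (intRing L) := by
  letI : TopologicalSpace (intRing L) := ⊥
  haveI : DiscreteTopology (intRing L) := ⟨rfl⟩
  haveI := intRing_continuousSMul (L := L)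
  infer_instance

/-- **Transitivity.**  If two valuation subrings of `L` over `ℓ` have the same nonunits among
the elements fixed by the closed subgroup `H`, they are conjugate under `H`. -/
theorem exists_mem_smul_eq [IsGalois ℚ L] (H : Subgroup (L ≃ₐ[ℚ] L))
    (hH : IsClosed (H : Set (L ≃ₐ[ℚ] L))) {ℓ : ℕ} (hℓ : ℓ.Prime)
    (V V' : ValuationSubring L) (hV : (ℓ : L) ∈ V.nonunits) (hV' : (ℓ : L) ∈ V'.nonunits)
    (hVV' : ∀ x : L, (∀ g ∈ H, g x = x) → (x ∈ V.nonunits ↔ x ∈ V'.nonunits)) :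
    ∃ g ∈ H, g • V = V' := by
  letI : TopologicalSpace (intRing L) := ⊥
  haveI : DiscreteTopology (intRing L) := ⟨rfl⟩
  haveI := subgroup_continuousSMul (L := L) H
  haveI : CompactSpace H := isCompact_iff_compactSpace.mp hH.isCompact
  have hPQ : (centerIdeal V).under (fixInt H) = (centerIdeal V').under (fixInt H) := by
    ext a
    rw [Ideal.mem_comap, Ideal.mem_comap, mem_centerIdeal_iff, mem_centerIdeal_iff]
    exact hVV' _ ((mem_fixInt_iff H a.1).mp a.2)
  obtain ⟨g, hg⟩ := Algebra.IsInvariant.exists_smul_of_under_eq_of_profinite (A := fixInt H)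
    (G := H) (centerIdeal V) (centerIdeal V') hPQ
  refine ⟨g.1, g.2, ?_⟩
  exact smul_eq_of_smul_centerIdeal_eq hℓ V V' hV hV' g.1 hg.symm

/-- Elements of the decomposition group preserve the maximal ideal. -/
theorem apply_mem_nonunits_iff_of_mem_decomposition (V : ValuationSubring L) {σ : L ≃ₐ[ℚ] L}
    (hσ : σ ∈ V.decompositionSubgroup ℚ) {x : L} : σ x ∈ V.nonunits ↔ x ∈ V.nonunits := by
  rw [ValuationSubring.mem_nonunits_iff_or, ValuationSubring.mem_nonunits_iff_or]
  rw [← map_inv₀, apply_mem_iff_of_mem_decomposition V hσ]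
  simp

theorem smul_centerIdeal_eq_of_mem_decomposition (V : ValuationSubring L) {σ : L ≃ₐ[ℚ] L}
    (hσ : σ ∈ V.decompositionSubgroup ℚ) : σ • centerIdeal V = centerIdeal V := by
  ext b
  rw [Ideal.mem_pointwise_smul_iff_inv_smul_mem, mem_centerIdeal_iff, mem_centerIdeal_iff]
  exact apply_mem_nonunits_iff_of_mem_decomposition V (inv_mem hσ)

/-- **Lifting residue automorphisms relative to `H`.**  If `σ₀` lies in the decomposition group
of `V` and acts trivially on the residue classes of the `H`-fixed elements of `V`, then some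
`δ ∈ H` in the decomposition group of `V` induces the same automorphism of the residue field. -/
theorem exists_mem_residue_eq [IsGalois ℚ L] (H : Subgroup (L ≃ₐ[ℚ] L))
    (hH : IsClosed (H : Set (L ≃ₐ[ℚ] L))) {ℓ : ℕ} (hℓ : ℓ.Prime)
    (V : ValuationSubring L) (hV : (ℓ : L) ∈ V.nonunits)
    (σ₀ : L ≃ₐ[ℚ] L) (hσ₀ : σ₀ ∈ V.decompositionSubgroup ℚ)
    (hres : ∀ x ∈ V, (∀ g ∈ H, g x = x) → σ₀ x - x ∈ V.nonunits) :
    ∃ δ ∈ H, δ ∈ V.decompositionSubgroup ℚ ∧ ∀ x ∈ V, δ x - σ₀ x ∈ V.nonunits := by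
  letI : TopologicalSpace (intRing L) := ⊥
  haveI : DiscreteTopology (intRing L) := ⟨rfl⟩
  haveI := subgroup_continuousSMul (L := L) H
  haveI : CompactSpace H := isCompact_iff_compactSpace.mp hH.isCompact
  have hσQ : σ₀ • centerIdeal V = centerIdeal V := smul_centerIdeal_eq_of_mem_decomposition V hσ₀
  let φ₀ := Ideal.Quotient.stabilizerHom (centerIdeal V) ((centerIdeal V).under ℤ)
    (L ≃ₐ[ℚ] L) ⟨σ₀, hσQ⟩
  have hφ₀ : ∀ b : intRing L, φ₀ (Ideal.Quotient.mk _ b) = Ideal.Quotient.mk _ (σ₀ • b) :=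
    fun b => Ideal.Quotient.stabilizerHom_apply _ _ _ _ b
  let φ : (intRing L ⧸ centerIdeal V) ≃ₐ[fixInt H ⧸ (centerIdeal V).under (fixInt H)]
      (intRing L ⧸ centerIdeal V) :=
    AlgEquiv.ofRingEquiv (f := φ₀.toRingEquiv) (by
      intro r
      obtain ⟨a, rfl⟩ := Ideal.Quotient.mk_surjective r
      rw [Ideal.Quotient.algebraMap_mk_of_liesOver]
      show φ₀ (Ideal.Quotient.mk _ (a : intRing L)) = _
      rw [hφ₀, Ideal.Quotient.eq, mem_centerIdeal_iff]
      exact hres _ (intRing_le V a.1.2) ((mem_fixInt_iff H a.1).mp a.2))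
  obtain ⟨δ, hδ⟩ := Ideal.Quotient.stabilizerHom_surjective_of_profinite (G := H)
    ((centerIdeal V).under (fixInt H)) (centerIdeal V) φ
  have hδQ : (δ.1 : L ≃ₐ[ℚ] L) • centerIdeal V = centerIdeal V := δ.2
  have hδb : ∀ b : intRing L, (δ.1 : L ≃ₐ[ℚ] L) (b : L) - σ₀ (b : L) ∈ V.nonunits := by
    intro b
    have h1 := congrArg (fun g => g (Ideal.Quotient.mk (centerIdeal V) b)) hδ
    simp only [Ideal.Quotient.stabilizerHom_apply] at h1
    have h2 : φ (Ideal.Quotient.mk (centerIdeal V) b) =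
        Ideal.Quotient.mk (centerIdeal V) (σ₀ • b) := hφ₀ b
    rw [h2] at h1
    exact Ideal.Quotient.eq.mp h1
  have hδD : (δ.1 : L ≃ₐ[ℚ] L) ∈ V.decompositionSubgroup ℚ :=
    smul_eq_of_smul_centerIdeal_eq hℓ V V hV hV _ hδQ
  refine ⟨δ.1.1, δ.1.2, hδD, fun x hx => ?_⟩
  obtain ⟨s, b, hs, hb⟩ := exists_intRing_fraction hℓ V hV hx
  have hδs : (δ.1 : L ≃ₐ[ℚ] L) (s : L) ∉ V.nonunits :=
    not_mem_nonunits_map_of_smul_centerIdeal_eq' V V _ hδQ hs
  apply mem_nonunits_of_mul_mem_nonunits V hδs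
  have hσx : σ₀ x ∈ V := apply_mem_of_mem_decomposition V hσ₀ hx
  have : (δ.1 : L ≃ₐ[ℚ] L) (s : L) * ((δ.1 : L ≃ₐ[ℚ] L) x - σ₀ x) =
      ((δ.1 : L ≃ₐ[ℚ] L) (b : L) - σ₀ (b : L)) -
        ((δ.1 : L ≃ₐ[ℚ] L) (s : L) - σ₀ (s : L)) * σ₀ x := by
    rw [hb, map_mul, map_mul]; ring
  rw [this]
  exact sub_mem (hδb b) (nonunits_mul_mem V (hδb s) hσx)

end Relative

section Inertia

variable {K L : Type*} [Field K] [Field L] [Algebra K L]

/-- An element of the decomposition group acting trivially on the residue field lies in the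
inertia group. -/
theorem mem_inertiaSubgroupIn_of_forall (A : ValuationSubring L) {σ : L ≃ₐ[K] L}
    (hσ : σ ∈ A.decompositionSubgroup K) (h : ∀ x ∈ A, σ x - x ∈ A.nonunits) :
    σ ∈ A.inertiaSubgroupIn K := by
  refine ⟨⟨σ, hσ⟩, ?_, rfl⟩
  show (⟨σ, hσ⟩ : A.decompositionSubgroup K) ∈ (MulSemiringAction.toRingAut
    (A.decompositionSubgroup K) (IsLocalRing.ResidueField A)).ker
  rw [MonoidHom.mem_ker]
  ext x
  obtain ⟨a, rfl⟩ := IsLocalRing.residue_surjective x
  show (⟨σ, hσ⟩ : A.decompositionSubgroup K) • (IsLocalRing.residue A a) = IsLocalRing.residue A a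
  rw [← IsLocalRing.ResidueField.residue_smul, ← sub_eq_zero, ← map_sub,
    IsLocalRing.residue_eq_zero_iff, ← ValuationSubring.coe_mem_nonunits_iff]
  exact h a a.2

end Inertia

section Relative2

variable {L : Type*} [Field L] [Algebra ℚ L]

/-- **Relative inertia.**  If `σ₀` lies in the decomposition group of `V` and acts trivially on
the residue classes of the `H`-fixed elements of `V` (`H` a closed subgroup), then
`δ⁻¹ * σ₀` lies in the inertia group of `V` for some `δ ∈ H`. -/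
theorem exists_mem_inv_mul_mem_inertia [IsGalois ℚ L] (H : Subgroup (L ≃ₐ[ℚ] L))
    (hH : IsClosed (H : Set (L ≃ₐ[ℚ] L))) {ℓ : ℕ} (hℓ : ℓ.Prime)
    (V : ValuationSubring L) (hV : (ℓ : L) ∈ V.nonunits)
    (σ₀ : L ≃ₐ[ℚ] L) (hσ₀ : σ₀ ∈ V.decompositionSubgroup ℚ)
    (hres : ∀ x ∈ V, (∀ g ∈ H, g x = x) → σ₀ x - x ∈ V.nonunits) :
    ∃ δ ∈ H, δ⁻¹ * σ₀ ∈ V.inertiaSubgroupIn ℚ := by
  obtain ⟨δ, hδH, hδD, hδ⟩ := exists_mem_residue_eq H hH hℓ V hV σ₀ hσ₀ hres
  refine ⟨δ, hδH, mem_inertiaSubgroupIn_of_forall V (mul_mem (inv_mem hδD) hσ₀) fun x hx => ?_⟩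
  have h1 : δ⁻¹ (σ₀ x - δ x) ∈ V.nonunits := by
    rw [apply_mem_nonunits_iff_of_mem_decomposition V (inv_mem hδD)]
    have := hδ x hx
    have h2 : σ₀ x - δ x = -(δ x - σ₀ x) := by ring
    rw [h2]
    exact neg_mem this
  have h3 : (δ⁻¹ * σ₀) x - x = δ⁻¹ (σ₀ x - δ x) := by
    rw [map_sub, AlgEquiv.mul_apply]
    congr 1
    show x = δ⁻¹ (δ x)
    rw [← AlgEquiv.mul_apply, inv_mul_cancel, AlgEquiv.one_apply]
  rw [h3]
  exact h1

end Relative2

end Fermat.Agent.H8
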