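import Mathlib.FieldTheory.IntermediateField.Adjoin.Algebra
import Mathlib.RingTheory.Valuation.ValuationSubring
import Fermat.Agent.H8.RelGalois

/-!
# Totally ramified Kummer generators are moved by inertia

Let `L/ℚ` be Galois (e.g. `L = ℚ̄`), `V` a valuation subring of `L` over a prime `ℓ`, `K` an
intermediate field containing the `p`-th roots of unity of `L`, and `π ∈ K` an element such that
every nonzero element of `K` has valuation an integral power of `v π < 1`.
If `A₀ ^ p = α ∈ K` and `v α = (v π) ^ n` with `p ∤ n` (`p` prime), then some element of the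
inertia group of `V` fixing `K` pointwise moves `A₀` (`exists_inertia_moving`).

No assumption on the residue characteristic is needed.
-/

set_option autoImplicit false
set_option linter.style.haveILetI false

namespace Fermat.Agent.H8

open scoped Pointwise

section ValSum

variable {L : Type*} [Field L] {Γ₀ : Type*} [LinearOrderedCommGroupWithZero Γ₀]

/-- The valuation of a finite sum whose nonzero terms have pairwise distinct valuations is the
supremum of the valuations. -/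
theorem val_sum_eq_sup_of_pairwise_ne (v : Valuation L Γ₀) {ι : Type*} [DecidableEq ι]
    (s : Finset ι) (f : ι → L)
    (h : ∀ i ∈ s, ∀ j ∈ s, i ≠ j → f i ≠ 0 → f j ≠ 0 → v (f i) ≠ v (f j)) :
    v (∑ i ∈ s, f i) = s.sup (fun i => v (f i)) := by
  induction s using Finset.induction_on with
  | empty => simp [bot_eq_zero]
  | insert a s ha ih =>
    have ih' := ih (fun i hi j hj => h i (Finset.mem_insert_of_mem hi) j
      (Finset.mem_insert_of_mem hj))
    rw [Finset.sum_insert ha, Finset.sup_insert]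
    by_cases hfa : f a = 0
    · rw [hfa, zero_add, map_zero, ih', ← bot_eq_zero, bot_sup_eq]
    · have hva : v (f a) ≠ 0 := (Valuation.ne_zero_iff v).mpr hfa
      have hne : v (f a) ≠ v (∑ i ∈ s, f i) := by
        rw [ih']
        intro heq
        rcases s.eq_empty_or_nonempty with hs | hs
        · subst hs
          rw [Finset.sup_empty, bot_eq_zero] at heq
          exact hva heq
        · obtain ⟨j, hj, hjeq⟩ := Finset.exists_mem_eq_sup s hs (fun i => v (f i))
          rw [hjeq] at heq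
          have hfj : f j ≠ 0 := by
            intro h0
            rw [h0, map_zero] at heq
            exact hva heq
          have haj : a ≠ j := fun h => ha (h ▸ hj)
          exact h a (Finset.mem_insert_self a s) j (Finset.mem_insert_of_mem hj) haj hfa hfj heq
      rw [Valuation.map_add_of_distinct_val v hne, ih']

theorem zpow_inj_of_lt_one {g : Γ₀} (hg0 : g ≠ 0) (hg1 : g < 1) {a b : ℤ}
    (h : g ^ a = g ^ b) : a = b := by
  have hpos : 0 < g := zero_lt_iff.mpr hg0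
  exact zpow_right_injective₀ hpos hg1.ne h

/-- Data of a "totally ramified Kummer generator" `A₀` (with `A₀ ^ p = α`) relative to a set `K`
of elements whose valuations are integral powers of `v π`. -/
structure KummerRamData (v : Valuation L Γ₀) (K : Set L) (p : ℕ) (π α A0 : L) (n : ℤ) :
    Prop where
  prime : p.Prime
  pi_ne : π ≠ 0
  pi_lt : v π < 1
  unif : ∀ c ∈ K, c ≠ 0 → ∃ m : ℤ, v c = v π ^ m
  pow_eq : A0 ^ p = α
  val_eq : v α = v π ^ n
  not_dvd : ¬ (p : ℤ) ∣ n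

namespace KummerRamData

variable {v : Valuation L Γ₀} {K : Set L} {p : ℕ} {π α A0 : L} {n : ℤ}

theorem val_pi_ne (h : KummerRamData v K p π α A0 n) : v π ≠ 0 :=
  (Valuation.ne_zero_iff v).mpr h.pi_ne

theorem alpha_ne (h : KummerRamData v K p π α A0 n) : α ≠ 0 := by
  rw [← Valuation.ne_zero_iff v, h.val_eq]
  exact zpow_ne_zero n h.val_pi_ne

theorem gen_ne (h : KummerRamData v K p π α A0 n) : A0 ≠ 0 := by
  intro h0
  apply h.alpha_ne
  rw [← h.pow_eq, h0, zero_pow h.prime.ne_zero]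

theorem term_pow (h : KummerRamData v K p π α A0 n) {c : L} {m : ℤ} (hc : v c = v π ^ m)
    (i : ℕ) : v (c * A0 ^ i) ^ p = v π ^ ((p : ℤ) * m + n * i) := by
  have hvπ := h.val_pi_ne
  have hA : v A0 ^ p = v π ^ n := by rw [← map_pow, h.pow_eq, h.val_eq]
  calc v (c * A0 ^ i) ^ p = (v c) ^ p * (v A0 ^ p) ^ i := by
        rw [map_mul, map_pow, mul_pow, ← pow_mul, ← pow_mul, mul_comm i p]
    _ = v π ^ ((p : ℤ) * m + n * i) := by
        have e1 : (v π ^ m) ^ p = v π ^ ((p : ℤ) * m) := by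
          rw [← zpow_natCast, ← zpow_mul, mul_comm]
        have e2 : (v π ^ n) ^ i = v π ^ (n * (i : ℤ)) := by
          rw [← zpow_natCast, ← zpow_mul]
        rw [hA, hc, e1, e2, ← zpow_add₀ hvπ]

theorem term_ne (h : KummerRamData v K p π α A0 n) {c d : L} (hc : c ∈ K) (hd : d ∈ K)
    (hc0 : c ≠ 0) (hd0 : d ≠ 0) {i j : ℕ} (hi : i < p) (hj : j < p) (hij : i ≠ j) :
    v (c * A0 ^ i) ≠ v (d * A0 ^ j) := by
  intro heq
  obtain ⟨m, hm⟩ := h.unif c hc hc0
  obtain ⟨m', hm'⟩ := h.unif d hd hd0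
  have h1 := h.term_pow hm i
  have h2 := h.term_pow hm' j
  rw [heq, h2] at h1
  have h3 := zpow_inj_of_lt_one h.val_pi_ne h.pi_lt h1
  have hp : Prime (p : ℤ) := Nat.prime_iff_prime_int.mp h.prime
  have h4 : (p : ℤ) ∣ n * ((i : ℤ) - j) := ⟨m' - m, by linarith⟩
  rcases hp.dvd_or_dvd h4 with h5 | h5
  · exact h.not_dvd h5
  · have h6 : ((i : ℤ) - j) = 0 := by
      apply Int.eq_zero_of_abs_lt_dvd h5
      rw [abs_lt]
      constructor <;> omega
    apply hij
    omega

theorem term_ne_one (h : KummerRamData v K p π α A0 n) {c : L} (hc : c ∈ K)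
    (hc0 : c ≠ 0) {i : ℕ} (hi0 : 0 < i) (hi : i < p) :
    v (c * A0 ^ i) ≠ 1 := by
  intro heq
  obtain ⟨m, hm⟩ := h.unif c hc hc0
  have h1 := h.term_pow hm i
  rw [heq, one_pow, ← zpow_zero (v π)] at h1
  have h3 := zpow_inj_of_lt_one h.val_pi_ne h.pi_lt h1
  have hp : Prime (p : ℤ) := Nat.prime_iff_prime_int.mp h.prime
  have h4 : (p : ℤ) ∣ n * (i : ℤ) := ⟨-m, by linarith⟩
  rcases hp.dvd_or_dvd h4 with h5 | h5
  · exact h.not_dvd h5
  · have := Int.le_of_dvd (by exact_mod_cast hi0) h5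
    omega

/-- The generator does not lie in `K`. -/
theorem gen_not_mem (h : KummerRamData v K p π α A0 n) : A0 ∉ K := by
  intro hK
  obtain ⟨m, hm⟩ := h.unif A0 hK h.gen_ne
  have h1 : v π ^ n = v π ^ ((p : ℤ) * m) := by
    rw [← h.val_eq, ← h.pow_eq, map_pow, hm, ← zpow_natCast, ← zpow_mul, mul_comm]
  have h2 := zpow_inj_of_lt_one h.val_pi_ne h.pi_lt h1
  exact h.not_dvd ⟨m, h2⟩

/-- The valuation of a `K`-combination of `1, A₀, …, A₀^(p-1)` is the maximum of the valuations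
of its terms. -/
theorem val_sum (h : KummerRamData v K p π α A0 n) (c : ℕ → L) (hc : ∀ i, c i ∈ K) :
    v (∑ i ∈ Finset.range p, c i * A0 ^ i) =
      (Finset.range p).sup (fun i => v (c i * A0 ^ i)) := by
  apply val_sum_eq_sup_of_pairwise_ne
  intro i hi j hj hij hfi hfj
  have hci : c i ≠ 0 := fun h0 => hfi (by rw [h0, zero_mul])
  have hcj : c j ≠ 0 := fun h0 => hfj (by rw [h0, zero_mul])
  exact h.term_ne (hc i) (hc j) hci hcj (Finset.mem_range.mp hi) (Finset.mem_range.mp hj) hij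

theorem term_pow_eq (h : KummerRamData v K p π α A0 n) (c : L) (i : ℕ) :
    v (c * A0 ^ i) ^ p = v (c ^ p * α ^ i) := by
  rw [← map_pow, mul_pow, ← pow_mul, mul_comm i p, pow_mul, h.pow_eq]

theorem sum_lt_one_iff (h : KummerRamData v K p π α A0 n) (c : ℕ → L) (hc : ∀ i, c i ∈ K) :
    v (∑ i ∈ Finset.range p, c i * A0 ^ i) < 1 ↔ ∀ i < p, v (c i ^ p * α ^ i) < 1 := by
  rw [h.val_sum c hc, Finset.sup_lt_iff (by rw [bot_eq_zero]; exact zero_lt_one)]
  refine forall_congr' fun i => ?_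
  rw [Finset.mem_range, ← h.term_pow_eq, pow_lt_one_iff_of_nonneg zero_le h.prime.ne_zero]

theorem sum_le_one_iff (h : KummerRamData v K p π α A0 n) (c : ℕ → L) (hc : ∀ i, c i ∈ K) :
    v (∑ i ∈ Finset.range p, c i * A0 ^ i) ≤ 1 ↔ ∀ i < p, v (c i * A0 ^ i) ≤ 1 := by
  rw [h.val_sum c hc, Finset.sup_le_iff]
  exact forall_congr' fun i => by rw [Finset.mem_range]

/-- Modulo the maximal ideal, an integral `K`-combination of `1, A₀, …, A₀^(p-1)` is congruent
to its constant term. -/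
theorem sum_sub_lt_one (h : KummerRamData v K p π α A0 n) (c : ℕ → L) (hc : ∀ i, c i ∈ K)
    (hx : v (∑ i ∈ Finset.range p, c i * A0 ^ i) ≤ 1) :
    v (∑ i ∈ Finset.range p, c i * A0 ^ i - c 0) < 1 := by
  have hle := (h.sum_le_one_iff c hc).mp hx
  obtain ⟨k, hk⟩ : ∃ k, p = k + 1 := ⟨p - 1, by have := h.prime.pos; omega⟩
  have hsum : ∑ i ∈ Finset.range p, c i * A0 ^ i - c 0 =
      ∑ i ∈ Finset.range k, c (i + 1) * A0 ^ (i + 1) := by
    rw [hk, Finset.sum_range_succ']
    simp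
  rw [hsum]
  apply Valuation.map_sum_lt v one_ne_zero
  intro i hi
  have hi' : i + 1 < p := by rw [hk]; have := Finset.mem_range.mp hi; omega
  by_cases hc0 : c (i + 1) = 0
  · rw [hc0, zero_mul, map_zero]; exact zero_lt_one
  · exact lt_of_le_of_ne (hle _ hi') (h.term_ne_one (hc _) hc0 (Nat.succ_pos i) hi')

end KummerRamData

end ValSum

section PolyRep

variable {L : Type*} [Field L] [Algebra ℚ L]

/-- Elements of `K(A₀)` with `A₀ ^ p ∈ K` are `K`-combinations of `1, A₀, …, A₀^(p-1)`. -/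
theorem exists_sum_of_mem_adjoin (K : IntermediateField ℚ L) {p : ℕ} (hp : 0 < p) {A0 : L}
    (hA0 : A0 ^ p ∈ K) {x : L} (hx : x ∈ IntermediateField.adjoin K {A0}) :
    ∃ c : ℕ → L, (∀ i, c i ∈ K) ∧ x = ∑ i ∈ Finset.range p, c i * A0 ^ i := by
  classical
  let α : K := ⟨A0 ^ p, hA0⟩
  let q : Polynomial K := Polynomial.X ^ p - Polynomial.C α
  have hq : q.Monic := Polynomial.monic_X_pow_sub_C α hp.ne'
  have hqA0 : Polynomial.aeval A0 q = 0 := by
    simp [q, α]
  have hint : IsIntegral K A0 := ⟨q, hq, hqA0⟩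
  have h1 : x ∈ (IntermediateField.adjoin K {A0}).toSubalgebra := hx
  rw [IntermediateField.adjoin_simple_toSubalgebra_of_isAlgebraic hint.isAlgebraic,
    Algebra.adjoin_singleton_eq_range_aeval] at h1
  obtain ⟨f, rfl⟩ := h1
  let r := f %ₘ q
  have hr : Polynomial.aeval A0 r = Polynomial.aeval A0 f :=
    Polynomial.aeval_modByMonic_eq_self_of_root hqA0
  have hdeg : r.natDegree < p := by
    have hqdeg : q.natDegree = p := Polynomial.natDegree_X_pow_sub_C
    have hq1 : q ≠ 1 := by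
      intro h
      have := congrArg Polynomial.natDegree h
      rw [hqdeg, Polynomial.natDegree_one] at this
      exact hp.ne' this
    have := Polynomial.natDegree_modByMonic_lt f hq hq1
    rwa [hqdeg] at this
  refine ⟨fun i => ((r.coeff i : K) : L), fun i => (r.coeff i).2, ?_⟩
  show (Polynomial.aeval A0) f = _
  rw [← hr, Polynomial.aeval_eq_sum_range' hdeg]
  refine Finset.sum_congr rfl fun i _ => ?_
  rw [Algebra.smul_def]
  rfl

/-- the intermediate field `K(A₀)` over `ℚ` -/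
noncomputable def adjoinGen (K : IntermediateField ℚ L) (A0 : L) : IntermediateField ℚ L :=
  (IntermediateField.adjoin K {A0}).restrictScalars ℚ

theorem mem_adjoinGen_iff (K : IntermediateField ℚ L) (A0 : L) (x : L) :
    x ∈ adjoinGen K A0 ↔ x ∈ IntermediateField.adjoin K {A0} := Iff.rfl

theorem le_adjoinGen (K : IntermediateField ℚ L) (A0 : L) {x : L} (hx : x ∈ K) :
    x ∈ adjoinGen K A0 := by
  rw [mem_adjoinGen_iff]
  exact (IntermediateField.adjoin K {A0}).algebraMap_mem ⟨x, hx⟩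

theorem gen_mem_adjoinGen (K : IntermediateField ℚ L) (A0 : L) : A0 ∈ adjoinGen K A0 := by
  rw [mem_adjoinGen_iff]
  exact IntermediateField.mem_adjoin_simple_self K A0

/-- Elements fixed by the subgroup fixing `K(A₀)` are `K`-combinations of powers of `A₀`. -/
theorem exists_sum_of_fixed [IsGalois ℚ L] (K : IntermediateField ℚ L) {p : ℕ} (hp : 0 < p)
    {A0 : L} (hA0 : A0 ^ p ∈ K) {x : L}
    (hx : ∀ g ∈ (adjoinGen K A0).fixingSubgroup, g x = x) :
    ∃ c : ℕ → L, (∀ i, c i ∈ K) ∧ x = ∑ i ∈ Finset.range p, c i * A0 ^ i := by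
  have hxM : x ∈ adjoinGen K A0 := by
    rw [← InfiniteGalois.fixedField_fixingSubgroup (adjoinGen K A0),
      IntermediateField.mem_fixedField_iff]
    exact hx
  exact exists_sum_of_mem_adjoin K hp hA0 ((mem_adjoinGen_iff K A0 x).mp hxM)

end PolyRep

section Transfer

theorem val_eq_one_iff_not_mem_nonunits {L : Type*} [Field L] (V : ValuationSubring L) {u : L} :
    V.valuation u = 1 ↔ u ∉ V.nonunits ∧ u⁻¹ ∉ V.nonunits := by
  rw [ValuationSubring.mem_nonunits_iff, ValuationSubring.mem_nonunits_iff, not_lt, not_lt]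
  constructor
  · intro h
    rw [map_inv₀, h, inv_one]
    exact ⟨le_rfl, le_rfl⟩
  · rintro ⟨h1, h2⟩
    apply le_antisymm _ h1
    by_contra hcon
    rw [not_le] at hcon
    have hu0 : V.valuation u ≠ 0 := (zero_lt_one.trans hcon).ne'
    rw [map_inv₀] at h2
    have : (V.valuation u)⁻¹ < 1 := by
      rw [inv_lt_one₀ (zero_lt_iff.mpr hu0)]
      exact hcon
    exact absurd h2 (not_le.mpr this)

variable {L : Type*} [Field L] [Algebra ℚ L]

/-- If two valuation subrings have the same nonunits in `K`, the units of `K` agree. -/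
theorem val_eq_one_of_agree (K : IntermediateField ℚ L) (V V' : ValuationSubring L)
    (hagree : ∀ y ∈ K, y ∈ V.nonunits ↔ y ∈ V'.nonunits) {u : L} (hu : u ∈ K)
    (h : V.valuation u = 1) : V'.valuation u = 1 := by
  rw [val_eq_one_iff_not_mem_nonunits] at h ⊢
  rw [← hagree u hu, ← hagree u⁻¹ (K.inv_mem hu)]
  exact h

theorem val_eq_zpow_of_agree (K : IntermediateField ℚ L) (V V' : ValuationSubring L)
    (hagree : ∀ y ∈ K, y ∈ V.nonunits ↔ y ∈ V'.nonunits) {π c : L} (hπ : π ∈ K) (hπ0 : π ≠ 0)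
    (hc : c ∈ K) {m : ℤ} (h : V.valuation c = V.valuation π ^ m) :
    V'.valuation c = V'.valuation π ^ m := by
  have hvπ : V.valuation π ≠ 0 := (Valuation.ne_zero_iff _).mpr hπ0
  have hvπ' : V'.valuation π ≠ 0 := (Valuation.ne_zero_iff _).mpr hπ0
  have h1 : V.valuation (c * (π ^ m)⁻¹) = 1 := by
    rw [map_mul, map_inv₀, map_zpow₀, h, mul_inv_cancel₀ (zpow_ne_zero m hvπ)]
  have h2 := val_eq_one_of_agree K V V' hagree
    (K.mul_mem hc (K.inv_mem (zpow_mem hπ m))) h1
  rw [map_mul, map_inv₀, map_zpow₀, mul_inv_eq_one₀ (zpow_ne_zero m hvπ')] at h2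
  exact h2

theorem KummerRamData.transfer (K : IntermediateField ℚ L) (V V' : ValuationSubring L)
    (hagree : ∀ y ∈ K, y ∈ V.nonunits ↔ y ∈ V'.nonunits) {p : ℕ} {π α A0 : L} {n : ℤ}
    (hπ : π ∈ K) (hα : α ∈ K) (h : KummerRamData V.valuation K p π α A0 n) :
    KummerRamData V'.valuation K p π α A0 n where
  prime := h.prime
  pi_ne := h.pi_ne
  pi_lt := by
    rw [← ValuationSubring.mem_nonunits_iff, ← hagree π hπ, ValuationSubring.mem_nonunits_iff]
    exact h.pi_lt
  unif := fun c hc hc0 => by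
    obtain ⟨m, hm⟩ := h.unif c hc hc0
    exact ⟨m, val_eq_zpow_of_agree K V V' hagree hπ h.pi_ne hc hm⟩
  pow_eq := h.pow_eq
  val_eq := val_eq_zpow_of_agree K V V' hagree hπ h.pi_ne hα h.val_eq
  not_dvd := h.not_dvd

/-- Two valuation subrings with the same nonunits in `K` have the same nonunits in `K(A₀)`. -/
theorem sum_mem_nonunits_iff_of_agree (K : IntermediateField ℚ L) (V V' : ValuationSubring L)
    (hagree : ∀ y ∈ K, y ∈ V.nonunits ↔ y ∈ V'.nonunits) {p : ℕ} {π α A0 : L} {n : ℤ}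
    (hπ : π ∈ K) (hα : α ∈ K) (h : KummerRamData V.valuation K p π α A0 n)
    (c : ℕ → L) (hc : ∀ i, c i ∈ K) :
    (∑ i ∈ Finset.range p, c i * A0 ^ i) ∈ V.nonunits ↔
      (∑ i ∈ Finset.range p, c i * A0 ^ i) ∈ V'.nonunits := by
  have h' := h.transfer K V V' hagree hπ hα
  rw [ValuationSubring.mem_nonunits_iff, ValuationSubring.mem_nonunits_iff,
    h.sum_lt_one_iff c hc, h'.sum_lt_one_iff c hc]
  refine forall_congr' fun i => forall_congr' fun _ => ?_
  rw [← ValuationSubring.mem_nonunits_iff, ← ValuationSubring.mem_nonunits_iff]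
  exact hagree _ (K.mul_mem (pow_mem (hc i) p) (pow_mem hα i))

end Transfer

section Main

variable {L : Type*} [Field L] [Algebra ℚ L]

theorem mem_smul_nonunits_iff (V : ValuationSubring L) (τ : L ≃ₐ[ℚ] L) (y : L) :
    y ∈ (τ • V).nonunits ↔ τ⁻¹ y ∈ V.nonunits := by
  rw [ValuationSubring.mem_nonunits_iff_or, ValuationSubring.mem_nonunits_iff_or,
    ValuationSubring.mem_pointwise_smul_iff_inv_smul_mem, ← map_inv₀]
  simp [AlgEquiv.smul_def]

/-- **Totally ramified Kummer generators are moved by inertia.** -/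
theorem exists_inertia_moving [IsGalois ℚ L] (V : ValuationSubring L) {ℓ : ℕ} (hℓ : ℓ.Prime)
    (hV : (ℓ : L) ∈ V.nonunits) (K : IntermediateField ℚ L) {p : ℕ} {π α A0 : L} {n : ℤ}
    (hroots : ∀ ω : L, ω ^ p = 1 → ω ∈ K) (hπ : π ∈ K) (hα : α ∈ K)
    (h : KummerRamData V.valuation K p π α A0 n) :
    ∃ σ ∈ V.inertiaSubgroupIn ℚ, (∀ x ∈ K, σ x = x) ∧ σ A0 ≠ A0 := by
  have hp0 : 0 < p := h.prime.pos
  have hA0K : A0 ^ p ∈ K := by rw [h.pow_eq]; exact hα
  -- step 1: an element of `G_K` moving `A0`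
  obtain ⟨τ, hτK, hτA0⟩ : ∃ τ ∈ K.fixingSubgroup, τ A0 ≠ A0 := by
    by_contra hcon
    apply h.gen_not_mem
    have : A0 ∈ IntermediateField.fixedField K.fixingSubgroup := by
      rw [IntermediateField.mem_fixedField_iff]
      intro g hg
      by_contra hne
      exact hcon ⟨g, hg, hne⟩
    rwa [InfiniteGalois.fixedField_fixingSubgroup K] at this
  have hτfix : ∀ x ∈ K, τ x = x := (IntermediateField.mem_fixingSubgroup_iff K τ).mp hτK
  have hτinvfix : ∀ x ∈ K, τ⁻¹ x = x :=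
    (IntermediateField.mem_fixingSubgroup_iff K τ⁻¹).mp (inv_mem hτK)
  -- the root of unity
  have hA0ne := h.gen_ne
  have hωK : τ A0 / A0 ∈ K := by
    apply hroots
    rw [div_pow, ← map_pow, h.pow_eq, hτfix α hα, div_self h.alpha_ne]
  -- step 2: the subgroup `H` fixing `K(A0)`
  let M := adjoinGen K A0
  have hH : IsClosed (M.fixingSubgroup : Set (L ≃ₐ[ℚ] L)) :=
    InfiniteGalois.fixingSubgroup_isClosed M
  have hHK : ∀ g ∈ M.fixingSubgroup, ∀ x ∈ K, g x = x := fun g hg x hx =>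
    (IntermediateField.mem_fixingSubgroup_iff M g).mp hg x (le_adjoinGen K A0 hx)
  have hHA0 : ∀ g ∈ M.fixingSubgroup, g A0 = A0 := fun g hg =>
    (IntermediateField.mem_fixingSubgroup_iff M g).mp hg A0 (gen_mem_adjoinGen K A0)
  have hHτA0 : ∀ g ∈ M.fixingSubgroup, g (τ A0) = τ A0 := by
    intro g hg
    have e : τ A0 = (τ A0 / A0) * A0 := by field_simp
    rw [e, map_mul, hHK g hg _ hωK, hHA0 g hg]
  -- step 3: `V' = τ • V` agrees with `V` on `K`
  have hagree : ∀ y ∈ K, y ∈ V.nonunits ↔ y ∈ (τ • V).nonunits := by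
    intro y hy
    rw [mem_smul_nonunits_iff, hτinvfix y hy]
  have hV' : (ℓ : L) ∈ (τ • V).nonunits := (hagree _ (natCast_mem K ℓ)).mp hV
  have hVV' : ∀ x : L, (∀ g ∈ M.fixingSubgroup, g x = x) →
      (x ∈ (τ • V).nonunits ↔ x ∈ V.nonunits) := by
    intro x hx
    obtain ⟨c, hc, rfl⟩ := exists_sum_of_fixed K hp0 hA0K hx
    exact (sum_mem_nonunits_iff_of_agree K V (τ • V) hagree hπ hα h c hc).symm
  obtain ⟨g, hg, hgV⟩ := exists_mem_smul_eq M.fixingSubgroup hH hℓ (τ • V) V hV' hV hVV'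
  -- step 4: `σ₀ = g * τ` is in the decomposition group, fixes `K`, moves `A0`
  have hσ₀D : g * τ ∈ V.decompositionSubgroup ℚ := by
    show (g * τ) • V = V
    rw [mul_smul, hgV]
  have hσ₀K : ∀ x ∈ K, (g * τ) x = x := fun x hx => by
    rw [AlgEquiv.mul_apply, hτfix x hx, hHK g hg x hx]
  have hσ₀A0 : (g * τ) A0 = τ A0 := by
    rw [AlgEquiv.mul_apply, hHτA0 g hg]
  -- step 5: `σ₀` acts trivially on the residue classes of `K(A0)`
  have hres : ∀ x ∈ V, (∀ g ∈ M.fixingSubgroup, g x = x) → (g * τ) x - x ∈ V.nonunits := by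
    intro x hxV hx
    obtain ⟨c, hc, rfl⟩ := exists_sum_of_fixed K hp0 hA0K hx
    have h1 := h.sum_sub_lt_one c hc ((ValuationSubring.valuation_le_one_iff V _).mpr hxV)
    rw [← ValuationSubring.mem_nonunits_iff] at h1
    have h2 : (g * τ) (∑ i ∈ Finset.range p, c i * A0 ^ i - c 0) ∈ V.nonunits :=
      (apply_mem_nonunits_iff_of_mem_decomposition V hσ₀D).mpr h1
    have h3 : (g * τ) (∑ i ∈ Finset.range p, c i * A0 ^ i) - ∑ i ∈ Finset.range p, c i * A0 ^ i =
        (g * τ) (∑ i ∈ Finset.range p, c i * A0 ^ i - c 0) -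
          (∑ i ∈ Finset.range p, c i * A0 ^ i - c 0) := by
      rw [map_sub, hσ₀K (c 0) (hc 0)]; ring
    rw [h3]
    exact sub_mem h2 h1
  obtain ⟨δ, hδ, hδI⟩ := exists_mem_inv_mul_mem_inertia M.fixingSubgroup hH hℓ V hV (g * τ)
    hσ₀D hres
  have hδinv : δ⁻¹ ∈ M.fixingSubgroup := inv_mem hδ
  refine ⟨δ⁻¹ * (g * τ), hδI, fun x hx => ?_, ?_⟩
  · rw [AlgEquiv.mul_apply, hσ₀K x hx, hHK _ hδinv x hx]
  · rw [AlgEquiv.mul_apply, hσ₀A0, hHτA0 _ hδinv]
    exact hτA0

/-- Contrapositive form: if every element of the inertia group of `V` fixing `K` pointwise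
fixes the Kummer generator `A₀`, then `p` divides the valuation exponent of `α = A₀ ^ p`. -/
theorem dvd_of_inertia_fixes [IsGalois ℚ L] (V : ValuationSubring L) {ℓ : ℕ} (hℓ : ℓ.Prime)
    (hV : (ℓ : L) ∈ V.nonunits) (K : IntermediateField ℚ L) {p : ℕ} (hp : p.Prime)
    {π α A0 : L} {n : ℤ} (hroots : ∀ ω : L, ω ^ p = 1 → ω ∈ K) (hπ : π ∈ K) (hα : α ∈ K)
    (hπ0 : π ≠ 0) (hπ1 : V.valuation π < 1)
    (hunif : ∀ c ∈ K, c ≠ 0 → ∃ m : ℤ, V.valuation c = V.valuation π ^ m)
    (hA0 : A0 ^ p = α) (hn : V.valuation α = V.valuation π ^ n)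
    (hfix : ∀ σ ∈ V.inertiaSubgroupIn ℚ, (∀ x ∈ K, σ x = x) → σ A0 = A0) :
    (p : ℤ) ∣ n := by
  by_contra hnd
  obtain ⟨σ, hσ, hσK, hσA0⟩ := exists_inertia_moving V hℓ hV K hroots hπ hα
    ⟨hp, hπ0, hπ1, hunif, hA0, hn, hnd⟩
  exact hσA0 (hfix σ hσ hσK)

/-- Same with the decomposition group. -/
theorem dvd_of_decomposition_fixes [IsGalois ℚ L] (V : ValuationSubring L) {ℓ : ℕ}
    (hℓ : ℓ.Prime) (hV : (ℓ : L) ∈ V.nonunits) (K : IntermediateField ℚ L) {p : ℕ}
    (hp : p.Prime) {π α A0 : L} {n : ℤ} (hroots : ∀ ω : L, ω ^ p = 1 → ω ∈ K) (hπ : π ∈ K)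
    (hα : α ∈ K) (hπ0 : π ≠ 0) (hπ1 : V.valuation π < 1)
    (hunif : ∀ c ∈ K, c ≠ 0 → ∃ m : ℤ, V.valuation c = V.valuation π ^ m)
    (hA0 : A0 ^ p = α) (hn : V.valuation α = V.valuation π ^ n)
    (hfix : ∀ σ ∈ V.decompositionSubgroup ℚ, (∀ x ∈ K, σ x = x) → σ A0 = A0) :
    (p : ℤ) ∣ n :=
  dvd_of_inertia_fixes V hℓ hV K hp hroots hπ hα hπ0 hπ1 hunif hA0 hn
    fun σ hσ hσK => hfix σ (mem_decomposition_of_mem_inertiaSubgroupIn V hσ) hσK

end Main

end Fermat.Agent.H8
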