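import Fermat.Agent.H8.InertiaBasic
import Fermat.Agent.H8.ReductionF2
import Fermat.Prelude.Def_FLTPrelim_GaloisRep

set_option autoImplicit false

/-!
# Inertia acts trivially modulo the kernel of reduction

Wrappers of F2 / FS for the Galois action `σ • P` of the prelude (`Point.map σ.toAlgHom`).
-/

namespace Fermat.Agent.H8

open WeierstrassCurve WeierstrassCurve.Affine WeierstrassCurve.Affine.Point

universe r s v

variable {R : Type r} {S : Type s} {K : Type v} [CommRing R] [Field S] [Field K]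
  [DecidableEq K] {W' : Affine R} [Algebra R S] [Algebra R K] [Algebra S K]
  [IsScalarTower R S K]

/-- The Galois action on an affine point, in coordinates. -/
theorem algEquiv_smul_some (σ : K ≃ₐ[S] K) {x y : K} (h : (W'⁄K).Nonsingular x y) :
    σ • (Point.some x y h : (W'⁄K).Point) =
      Point.some (σ x) (σ y) ((W'.baseChange_nonsingular σ.toAlgHom.injective ..).mpr h) :=
  rfl

theorem algEquiv_smul_zero (σ : K ≃ₐ[S] K) : σ • (0 : (W'⁄K).Point) = 0 := rfl

/-- **F2 for inertia**: if `P = (x, y)` is an `A`-integral point of an `A`-integral Weierstrass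
curve whose reduction is a nonsingular point of the reduced curve, and `σ` is in the inertia
group of `A`, then `σ • P - P` is `0` or lies in the kernel of reduction. -/
theorem inertia_smul_sub_of_nonsingular_reduction (A : ValuationSubring K)
    (ha₁ : (W'⁄K).a₁ ∈ A) (ha₂ : (W'⁄K).a₂ ∈ A) (ha₃ : (W'⁄K).a₃ ∈ A) (ha₄ : (W'⁄K).a₄ ∈ A)
    {σ : K ≃ₐ[S] K} (hσ : σ ∈ A.inertiaSubgroupIn S)
    {x y : K} (h : (W'⁄K).Nonsingular x y) (hx : x ∈ A) (hy : y ∈ A)
    (hns : (W'⁄K).a₁ * y - (3 * x ^ 2 + 2 * (W'⁄K).a₂ * x + (W'⁄K).a₄) ∉ A.nonunits ∨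
      2 * y + (W'⁄K).a₁ * x + (W'⁄K).a₃ ∉ A.nonunits) :
    σ • (Point.some x y h : (W'⁄K).Point) - Point.some x y h = 0 ∨
    ∃ (x₃ y₃ : K) (h₃ : (W'⁄K).Nonsingular x₃ y₃),
      σ • (Point.some x y h : (W'⁄K).Point) - Point.some x y h = Point.some x₃ y₃ h₃ ∧
        x₃ ∉ A := by
  rw [algEquiv_smul_some]
  have hdec := mem_decomposition_of_mem_inertiaSubgroupIn A hσ
  exact sub_eq_zero_or_X_not_mem_of_reduction_eq A (W'⁄K) ha₁ ha₂ ha₃ ha₄ _ h
    (apply_mem_of_mem_decomposition A hdec hx) hx hy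
    (apply_sub_mem_nonunits_of_mem_inertia A hσ hx)
    (apply_sub_mem_nonunits_of_mem_inertia A hσ hy) hns

/-- **FS for inertia** (points reducing to a node, scaled coordinates).  Let `P = (x, y)` with
`x ∈ A`, and let `t ≠ 0` be fixed by `σ` with `x / t ∈ A`, `y / t ∈ A` and
`|t| ≤ |W_Y(x, y)| = |2 y + a₁ x + a₃|`.  If `σ` is in the inertia group of `A`, then `σ • P - P`
is `0` or lies in the kernel of reduction. -/
theorem inertia_smul_sub_of_scaled (A : ValuationSubring K)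
    (ha₁ : (W'⁄K).a₁ ∈ A) (ha₂ : (W'⁄K).a₂ ∈ A)
    {σ : K ≃ₐ[S] K} (hσ : σ ∈ A.inertiaSubgroupIn S)
    {x y : K} (h : (W'⁄K).Nonsingular x y) (hx : x ∈ A)
    {t : K} (ht0 : t ≠ 0) (ht : σ t = t) (hxt : x / t ∈ A) (hyt : y / t ∈ A)
    (hWY : A.valuation t ≤ A.valuation (2 * y + (W'⁄K).a₁ * x + (W'⁄K).a₃)) :
    σ • (Point.some x y h : (W'⁄K).Point) - Point.some x y h = 0 ∨
    ∃ (x₃ y₃ : K) (h₃ : (W'⁄K).Nonsingular x₃ y₃),
      σ • (Point.some x y h : (W'⁄K).Point) - Point.some x y h = Point.some x₃ y₃ h₃ ∧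
        x₃ ∉ A := by
  rw [algEquiv_smul_some]
  have hdec := mem_decomposition_of_mem_inertiaSubgroupIn A hσ
  have htpos : 0 < A.valuation t := by rw [Valuation.pos_iff]; exact ht0
  -- `σ z - z = t * (σ (z / t) - z / t)` has valuation `< |t|` when `z / t ∈ A`
  have key : ∀ z : K, z / t ∈ A → A.valuation (σ z - z) < A.valuation t := by
    intro z hz
    have h1 : σ z - z = t * (σ (z / t) - z / t) := by
      rw [map_div₀, ht]; field_simp
    rw [h1, map_mul]
    have h2 : A.valuation (σ (z / t) - z / t) < 1 :=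
      (val_lt_one_iff A).2 (apply_sub_mem_nonunits_of_mem_inertia A hσ hz)
    calc A.valuation t * A.valuation (σ (z / t) - z / t)
        < A.valuation t * 1 := mul_lt_mul_of_pos_left h2 htpos
      _ = A.valuation t := mul_one _
  exact sub_eq_zero_or_X_not_mem_of_val_lt A (W'⁄K) ha₁ ha₂ _ h
    (apply_mem_of_mem_decomposition A hdec hx) hx
    (lt_of_lt_of_le (key x hxt) hWY) (lt_of_lt_of_le (key y hyt) hWY)

end Fermat.Agent.H8
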