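import Fermat.Agent.H8.RelGalois

/-!
# Lifting inertia from an intermediate field

Let `L/ℚ` be Galois (e.g. `L = ℚ̄`), `A` a valuation subring of `L` over a prime `ℓ`, `F` an
intermediate field and `τ ∈ Gal(L/ℚ)` with `τ F ⊆ F`, preserving `A ∩ F` and acting trivially on
the residue classes of `A ∩ F` (i.e. `τ|_F` is in the inertia group of the place of `F` below
`A`).  Then `τ|_F` is the restriction of an element of the inertia group of `A`
(`exists_inertia_lift`); similarly for the decomposition group (`exists_decomposition_lift`).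
-/

set_option autoImplicit false
set_option linter.style.haveILetI false

namespace Fermat.Agent.H8

open scoped Pointwise

variable {L : Type*} [Field L] [Algebra ℚ L]

theorem mem_of_forall_mem_fixingSubgroup [IsGalois ℚ L] (F : IntermediateField ℚ L) {x : L}
    (hx : ∀ g ∈ F.fixingSubgroup, g x = x) : x ∈ F := by
  rw [← InfiniteGalois.fixedField_fixingSubgroup F, IntermediateField.mem_fixedField_iff]
  exact hx

theorem mem_inv_smul_nonunits_iff (A : ValuationSubring L) (τ : L ≃ₐ[ℚ] L) (y : L) :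
    y ∈ (τ⁻¹ • A).nonunits ↔ τ y ∈ A.nonunits := by
  rw [ValuationSubring.mem_nonunits_iff_or, ValuationSubring.mem_nonunits_iff_or,
    ValuationSubring.mem_pointwise_smul_iff_inv_smul_mem, ← map_inv₀]
  simp [AlgEquiv.smul_def]

/-- **Lifting the decomposition group.**  If `τ` preserves the place of `F` below `A`, then
`τ|_F` is the restriction of an element of the decomposition group of `A`; more precisely
`τ * g` lies in the decomposition group for some `g` fixing `F` pointwise. -/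
theorem exists_decomposition_lift [IsGalois ℚ L] (F : IntermediateField ℚ L)
    (A : ValuationSubring L) {ℓ : ℕ} (hℓ : ℓ.Prime) (hA : (ℓ : L) ∈ A.nonunits)
    (τ : L ≃ₐ[ℚ] L) (hτA : ∀ y ∈ F, τ y ∈ A ↔ y ∈ A) :
    ∃ g ∈ F.fixingSubgroup, τ * g ∈ A.decompositionSubgroup ℚ := by
  have hnon : ∀ x ∈ F, x ∈ A.nonunits ↔ x ∈ (τ⁻¹ • A).nonunits := by
    intro x hx
    rw [mem_inv_smul_nonunits_iff, ValuationSubring.mem_nonunits_iff_or,
      ValuationSubring.mem_nonunits_iff_or, ← map_inv₀, hτA x⁻¹ (F.inv_mem hx)]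
    simp
  have hA' : (ℓ : L) ∈ (τ⁻¹ • A).nonunits := (hnon _ (natCast_mem F ℓ)).mp hA
  obtain ⟨g, hg, hgA⟩ := exists_mem_smul_eq F.fixingSubgroup
    (InfiniteGalois.fixingSubgroup_isClosed F) hℓ A (τ⁻¹ • A) hA hA'
    (fun x hx => hnon x (mem_of_forall_mem_fixingSubgroup F hx))
  refine ⟨g, hg, ?_⟩
  show (τ * g) • A = A
  rw [mul_smul, hgA, smul_inv_smul]

/-- **Lifting inertia.**  If `τ` maps `F` into itself, preserves the place of `F` below `A` and
acts trivially on its residue field, then `τ|_F` is the restriction of an element of the inertia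
group of `A`. -/
theorem exists_inertia_lift [IsGalois ℚ L] (F : IntermediateField ℚ L)
    (A : ValuationSubring L) {ℓ : ℕ} (hℓ : ℓ.Prime) (hA : (ℓ : L) ∈ A.nonunits)
    (τ : L ≃ₐ[ℚ] L) (hτF : ∀ y ∈ F, τ y ∈ F) (hτA : ∀ y ∈ F, τ y ∈ A ↔ y ∈ A)
    (hτres : ∀ y ∈ F, y ∈ A → τ y - y ∈ A.nonunits) :
    ∃ σ ∈ A.inertiaSubgroupIn ℚ, ∀ y ∈ F, σ y = τ y := by
  obtain ⟨g, hg, hD⟩ := exists_decomposition_lift F A hℓ hA τ hτA
  have hgF : ∀ y ∈ F, g y = y := (IntermediateField.mem_fixingSubgroup_iff F g).mp hg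
  have hres : ∀ x ∈ A, (∀ h ∈ F.fixingSubgroup, h x = x) → (τ * g) x - x ∈ A.nonunits := by
    intro x hxA hx
    have hxF := mem_of_forall_mem_fixingSubgroup F hx
    rw [AlgEquiv.mul_apply, hgF x hxF]
    exact hτres x hxF hxA
  obtain ⟨δ, hδ, hI⟩ := exists_mem_inv_mul_mem_inertia F.fixingSubgroup
    (InfiniteGalois.fixingSubgroup_isClosed F) hℓ A hA (τ * g) hD hres
  have hδF : ∀ y ∈ F, δ⁻¹ y = y :=
    (IntermediateField.mem_fixingSubgroup_iff F δ⁻¹).mp (inv_mem hδ)
  refine ⟨δ⁻¹ * (τ * g), hI, fun y hy => ?_⟩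
  rw [AlgEquiv.mul_apply, AlgEquiv.mul_apply, hgF y hy, hδF _ (hτF y hy)]

end Fermat.Agent.H8
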