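import Mathlib
import Fermat.Agent.H26.KernelReduction
import Fermat.Agent.H8.ReductionF2

set_option autoImplicit false
set_option linter.unusedSectionVars false

/-!
# The reduction map of a Weierstrass curve with good reduction is a group homomorphism

`K` a field, `A` a valuation subring with residue field `k`, `WK` a Weierstrass curve over `K`
with coefficients in `A`, `Wk` the curve over `k` whose coefficients are the residues, and
`Wk.Δ ≠ 0`.  We define `red : WK(K) → Wk(k)` and show that it is additive, with kernel the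
kernel of reduction `H26.kerRed`, hence injective on `m`-torsion for `m` a unit of `A`.
-/

namespace Fermat.Agent.H8.RedHom

open WeierstrassCurve WeierstrassCurve.Affine

variable {K : Type*} [Field K] (A : ValuationSubring K)

/-- `Wk` is the reduction of `WK` modulo the maximal ideal of `A`. -/
structure IsRed (WK : WeierstrassCurve K)
    (Wk : WeierstrassCurve (IsLocalRing.ResidueField A)) : Prop where
  a₁ : ∃ h : WK.a₁ ∈ A, IsLocalRing.residue A ⟨WK.a₁, h⟩ = Wk.a₁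
  a₂ : ∃ h : WK.a₂ ∈ A, IsLocalRing.residue A ⟨WK.a₂, h⟩ = Wk.a₂
  a₃ : ∃ h : WK.a₃ ∈ A, IsLocalRing.residue A ⟨WK.a₃, h⟩ = Wk.a₃
  a₄ : ∃ h : WK.a₄ ∈ A, IsLocalRing.residue A ⟨WK.a₄, h⟩ = Wk.a₄
  a₆ : ∃ h : WK.a₆ ∈ A, IsLocalRing.residue A ⟨WK.a₆, h⟩ = Wk.a₆

variable {A} {WK : WeierstrassCurve K} {Wk : WeierstrassCurve (IsLocalRing.ResidueField A)}

theorem IsRed.isIntegralAt (h : IsRed A WK Wk) :
    Fermat.Agent.H26.IsIntegralAt A.valuation WK.toAffine :=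
  Fermat.Agent.H26.isIntegralAt_of_mem A h.a₁.1 h.a₂.1 h.a₃.1 h.a₄.1 h.a₆.1

/-- The `y`-coordinate of a point with integral `x`-coordinate is integral. -/
theorem y_mem_of_x_mem (h : IsRed A WK Wk) {x y : K} (he : WK.toAffine.Equation x y)
    (hx : x ∈ A) : y ∈ A := by
  by_contra hy
  have hy1 : 1 < A.valuation y := by
    rw [← not_le, A.valuation_le_one_iff]; exact hy
  have e := (WK.toAffine.equation_iff x y).1 he
  -- y^2 = x^3 + a₂ x^2 + a₄ x + a₆ - (a₁ x + a₃) y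
  have hrhs : x ^ 3 + WK.a₂ * x ^ 2 + WK.a₄ * x + WK.a₆ ∈ A :=
    A.add_mem _ _ (A.add_mem _ _ (A.add_mem _ _ (pow_mem hx 3)
      (A.mul_mem _ _ h.a₂.1 (pow_mem hx 2))) (A.mul_mem _ _ h.a₄.1 hx)) h.a₆.1
  have hc : WK.a₁ * x + WK.a₃ ∈ A := A.add_mem _ _ (A.mul_mem _ _ h.a₁.1 hx) h.a₃.1
  have e' : y ^ 2 = (x ^ 3 + WK.a₂ * x ^ 2 + WK.a₄ * x + WK.a₆) - (WK.a₁ * x + WK.a₃) * y := by
    linear_combination e
  have h1 : A.valuation ((x ^ 3 + WK.a₂ * x ^ 2 + WK.a₄ * x + WK.a₆)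
      - (WK.a₁ * x + WK.a₃) * y) ≤ A.valuation y := by
    refine le_trans (Valuation.map_sub _ _ _) (max_le ?_ ?_)
    · exact le_trans ((A.valuation_le_one_iff _).2 hrhs) hy1.le
    · rw [map_mul]
      calc A.valuation (WK.a₁ * x + WK.a₃) * A.valuation y ≤ 1 * A.valuation y :=
            mul_le_mul' ((A.valuation_le_one_iff _).2 hc) le_rfl
        _ = A.valuation y := one_mul _
  rw [← e', map_pow] at h1
  have hpos : 0 < A.valuation y := lt_trans zero_lt_one hy1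
  have : A.valuation y < A.valuation y ^ 2 := by
    calc A.valuation y = A.valuation y * 1 := (mul_one _).symm
      _ < A.valuation y * A.valuation y := mul_lt_mul_of_pos_left hy1 hpos
      _ = A.valuation y ^ 2 := (sq _).symm
  exact absurd h1 (not_le.mpr this)


/-- the residue map of `A` -/
noncomputable abbrev rho (A : ValuationSubring K) : A →+* IsLocalRing.ResidueField A :=
  IsLocalRing.residue A

theorem isUnit_of_rho_ne_zero {N : A} (hN : rho A N ≠ 0) : IsUnit N := by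
  rw [← IsLocalRing.notMem_maximalIdeal]
  intro hmem
  exact hN ((IsLocalRing.residue_eq_zero_iff N).2 hmem)

theorem coe_unit_mul_inv (u : Aˣ) : ((u : A) : K) * (((u⁻¹ : Aˣ) : A) : K) = 1 := by
  have h1 : (((u : A) * ((u⁻¹ : Aˣ) : A) : A) : K) = ((1 : A) : K) := by rw [u.mul_inv]
  simpa only [MulMemClass.coe_mul, OneMemClass.coe_one] using h1

/-- a unit `N` of `A` has an inverse `M` in `A`, whose image in `K` is the inverse. -/
theorem exists_inv_of_rho_ne_zero {N : A} (hN : rho A N ≠ 0) :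
    ∃ M : A, N * M = 1 ∧ (M : K) = (N : K)⁻¹ ∧ rho A M = (rho A N)⁻¹ ∧ (N : K) ≠ 0 := by
  obtain ⟨u, rfl⟩ := isUnit_of_rho_ne_zero hN
  refine ⟨((u⁻¹ : Aˣ) : A), u.mul_inv, ?_, ?_, ?_⟩
  · exact eq_inv_of_mul_eq_one_right (coe_unit_mul_inv u)
  · have h1 : rho A (u : A) * rho A ((u⁻¹ : Aˣ) : A) = 1 := by
      rw [← map_mul, u.mul_inv, map_one]
    exact eq_inv_of_mul_eq_one_right h1
  · intro h0
    have h1 := coe_unit_mul_inv u
    rw [h0, zero_mul] at h1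
    exact zero_ne_one h1

/-- The reduction of an integral point satisfies the reduced equation. -/
theorem equation_red (h : IsRed A WK Wk) {X Y : A}
    (he : WK.toAffine.Equation (X : K) (Y : K)) :
    Wk.toAffine.Equation (rho A X) (rho A Y) := by
  obtain ⟨h1, e1⟩ := h.a₁
  obtain ⟨h2, e2⟩ := h.a₂
  obtain ⟨h3, e3⟩ := h.a₃
  obtain ⟨h4, e4⟩ := h.a₄
  obtain ⟨h6, e6⟩ := h.a₆
  rw [Affine.equation_iff] at he ⊢
  have heA : Y ^ 2 + (⟨WK.a₁, h1⟩ : A) * X * Y + (⟨WK.a₃, h3⟩ : A) * Y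
      = X ^ 3 + (⟨WK.a₂, h2⟩ : A) * X ^ 2 + (⟨WK.a₄, h4⟩ : A) * X + (⟨WK.a₆, h6⟩ : A) := by
    apply Subtype.ext
    push_cast
    exact he
  have := congrArg (rho A) heA
  simp only [map_add, map_mul, map_pow] at this
  rw [e1, e2, e3, e4, e6] at this
  exact this


section Slope

variable [DecidableEq K] [DecidableEq (IsLocalRing.ResidueField A)]

/-- **Reduction of the slope**: if the reductions of two integral points are not opposite, then
the slope of the line through them is integral and reduces to the slope of the line through the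
reduced points. -/
theorem slope_red (h : IsRed A WK Wk) {X₁ Y₁ X₂ Y₂ : A}
    (he₁ : WK.toAffine.Equation (X₁ : K) (Y₁ : K)) (he₂ : WK.toAffine.Equation (X₂ : K) (Y₂ : K))
    (hne : ¬(rho A X₁ = rho A X₂ ∧ rho A Y₁ = Wk.toAffine.negY (rho A X₂) (rho A Y₂))) :
    ∃ L : A, (L : K) = WK.toAffine.slope (X₁ : K) (X₂ : K) (Y₁ : K) (Y₂ : K) ∧
      rho A L = Wk.toAffine.slope (rho A X₁) (rho A X₂) (rho A Y₁) (rho A Y₂) := by
  have hr₁ := equation_red h he₁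
  have hr₂ := equation_red h he₂
  obtain ⟨h1, e1⟩ := h.a₁
  obtain ⟨h2, e2⟩ := h.a₂
  obtain ⟨h3, e3⟩ := h.a₃
  obtain ⟨h4, e4⟩ := h.a₄
  have E₁ := (Affine.equation_iff _ _).1 he₁
  have E₂ := (Affine.equation_iff _ _).1 he₂
  by_cases hx : rho A X₁ = rho A X₂
  · have hy : rho A Y₁ ≠ Wk.toAffine.negY (rho A X₂) (rho A Y₂) := fun hy => hne ⟨hx, hy⟩
    obtain ⟨N, hN⟩ : ∃ N : A, N = Y₁ + Y₂ + (⟨WK.a₁, h1⟩ : A) * X₂ + (⟨WK.a₃, h3⟩ : A) := ⟨_, rfl⟩
    obtain ⟨M, hM⟩ : ∃ M : A, M = X₁ ^ 2 + X₁ * X₂ + X₂ ^ 2 + (⟨WK.a₂, h2⟩ : A) * (X₁ + X₂)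
        + (⟨WK.a₄, h4⟩ : A) - (⟨WK.a₁, h1⟩ : A) * Y₁ := ⟨_, rfl⟩
    have hNρ : rho A N = rho A Y₁ - Wk.toAffine.negY (rho A X₂) (rho A Y₂) := by
      rw [hN]
      simp only [map_add, map_mul, Affine.negY, e1, e3]
      ring
    have hMρ : rho A M = rho A X₁ ^ 2 + rho A X₁ * rho A X₂ + rho A X₂ ^ 2
        + Wk.a₂ * (rho A X₁ + rho A X₂) + Wk.a₄ - Wk.a₁ * rho A Y₁ := by
      rw [hM]
      simp only [map_add, map_sub, map_mul, map_pow, e1, e2, e4]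
    have hNK : (N : K) = Y₁ + Y₂ + WK.a₁ * X₂ + WK.a₃ := by
      rw [hN]; push_cast; rfl
    have hMK : (M : K) = (X₁ : K) ^ 2 + X₁ * X₂ + (X₂ : K) ^ 2 + WK.a₂ * (X₁ + X₂) + WK.a₄
        - WK.a₁ * Y₁ := by
      rw [hM]; push_cast; rfl
    have hN0 : rho A N ≠ 0 := by rw [hNρ]; exact sub_ne_zero.2 hy
    obtain ⟨Ninv, -, hNinvK, hNinvρ, hNK0⟩ := exists_inv_of_rho_ne_zero hN0
    have key : (N : K) * ((Y₁ : K) - Y₂) = ((X₁ : K) - X₂) * M := by
      rw [hNK, hMK]; linear_combination E₁ - E₂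
    refine ⟨M * Ninv, ?_, ?_⟩
    · rw [MulMemClass.coe_mul, hNinvK, ← div_eq_mul_inv]
      by_cases hxK : (X₁ : K) = X₂
      · have hyK : (Y₁ : K) ≠ WK.toAffine.negY X₂ Y₂ := by
          intro hyK
          apply hNK0
          rw [hNK, hyK, Affine.negY]; ring
        have hYY : (Y₁ : K) = Y₂ := Affine.Y_eq_of_Y_ne he₁ he₂ hxK hyK
        rw [Affine.slope_of_Y_ne hxK hyK]
        have e1' : (M : K) = 3 * (X₁ : K) ^ 2 + 2 * WK.toAffine.a₂ * X₁ + WK.toAffine.a₄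
            - WK.toAffine.a₁ * Y₁ := by
          rw [hMK, ← hxK]; ring
        have e2' : (N : K) = (Y₁ : K) - WK.toAffine.negY X₁ Y₁ := by
          rw [hNK, Affine.negY, ← hxK, ← hYY]; ring
        rw [e1', e2']
      · rw [Affine.slope_of_X_ne hxK, div_eq_div_iff hNK0 (sub_ne_zero.2 hxK)]
        linear_combination -key
    · rw [map_mul, hNinvρ, ← div_eq_mul_inv]
      have hyy : rho A Y₁ = rho A Y₂ := Affine.Y_eq_of_Y_ne hr₁ hr₂ hx hy
      rw [Affine.slope_of_Y_ne hx hy]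
      have e1' : rho A M = 3 * rho A X₁ ^ 2 + 2 * Wk.toAffine.a₂ * rho A X₁ + Wk.toAffine.a₄
          - Wk.toAffine.a₁ * rho A Y₁ := by
        rw [hMρ, ← hx]; ring
      have e2' : rho A N = rho A Y₁ - Wk.toAffine.negY (rho A X₁) (rho A Y₁) := by
        rw [hNρ, ← hx, ← hyy]
      rw [e1', e2']
  · have hU0 : rho A (X₁ - X₂) ≠ 0 := by rw [map_sub]; exact sub_ne_zero.2 hx
    obtain ⟨Uinv, -, hUinvK, hUinvρ, hUK0⟩ := exists_inv_of_rho_ne_zero hU0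
    refine ⟨(Y₁ - Y₂) * Uinv, ?_, ?_⟩
    · have hxK : (X₁ : K) ≠ X₂ := by
        intro hxK
        apply hx
        rw [Subtype.ext hxK]
      rw [Affine.slope_of_X_ne hxK, MulMemClass.coe_mul, hUinvK, div_eq_mul_inv]
      push_cast
      rfl
    · rw [Affine.slope_of_X_ne hx, map_mul, hUinvρ, div_eq_mul_inv, map_sub, map_sub]

end Slope


section Red

theorem some_congr {F : Type*} [Field F] {W : WeierstrassCurve.Affine F} {x y x' y' : F}
    (h : W.Nonsingular x y) (h' : W.Nonsingular x' y') (hx : x = x') (hy : y = y') :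
    Affine.Point.some x y h = Affine.Point.some x' y' h' := by
  subst hx; subst hy; rfl

open scoped Classical in
/-- The reduction map on points (as a plain function). -/
noncomputable def red (h : IsRed A WK Wk) (hΔ : Wk.Δ ≠ 0) :
    WK.toAffine.Point → Wk.toAffine.Point
  | .zero => 0
  | .some x y hxy =>
    if hx : x ∈ A then
      Affine.Point.some (rho A ⟨x, hx⟩) (rho A ⟨y, y_mem_of_x_mem h hxy.1 hx⟩)
        ((Affine.equation_iff_nonsingular_of_Δ_ne_zero hΔ).1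
          (equation_red h (X := ⟨x, hx⟩) (Y := ⟨y, y_mem_of_x_mem h hxy.1 hx⟩) hxy.1))
    else 0

variable (h : IsRed A WK Wk) (hΔ : Wk.Δ ≠ 0)

@[simp] theorem red_zero : red h hΔ 0 = 0 := rfl

theorem red_some_of_not_mem {x y : K} (hxy : WK.toAffine.Nonsingular x y) (hx : x ∉ A) :
    red h hΔ (Affine.Point.some x y hxy) = 0 := by
  simp only [red, dif_neg hx]

theorem red_some_coe {X Y : A} (hxy : WK.toAffine.Nonsingular (X : K) (Y : K)) :
    red h hΔ (Affine.Point.some (X : K) (Y : K) hxy) =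
      Affine.Point.some (rho A X) (rho A Y)
        ((Affine.equation_iff_nonsingular_of_Δ_ne_zero hΔ).1 (equation_red h hxy.1)) := by
  simp only [red, dif_pos X.2]

theorem red_some_of_mem {x y : K} (hxy : WK.toAffine.Nonsingular x y) (hx : x ∈ A) :
    ∃ (Y : A) (_ : (Y : K) = y) (hns : Wk.toAffine.Nonsingular (rho A ⟨x, hx⟩) (rho A Y)),
      red h hΔ (Affine.Point.some x y hxy) = Affine.Point.some (rho A ⟨x, hx⟩) (rho A Y) hns := by
  refine ⟨⟨y, y_mem_of_x_mem h hxy.1 hx⟩, rfl,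
    (Affine.equation_iff_nonsingular_of_Δ_ne_zero hΔ).1
      (equation_red h (X := ⟨x, hx⟩) (Y := ⟨y, y_mem_of_x_mem h hxy.1 hx⟩) hxy.1), ?_⟩
  simp only [red, dif_pos hx]

variable [DecidableEq K]

/-- `red P = 0` iff `P` is in the kernel of reduction. -/
theorem red_eq_zero_iff (P : WK.toAffine.Point) :
    red h hΔ P = 0 ↔ P ∈ Fermat.Agent.H26.kerRed h.isIntegralAt := by
  rcases P with _ | ⟨x, y, hxy⟩
  · exact ⟨fun _ => trivial, fun _ => rfl⟩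
  · rw [Fermat.Agent.H26.some_mem_kerRed, Fermat.Agent.H26.one_lt_valuation_iff]
    constructor
    · intro h0 hx
      obtain ⟨Y, -, hns, e⟩ := red_some_of_mem h hΔ hxy hx
      rw [e] at h0
      exact Affine.Point.some_ne_zero hns h0
    · intro hx
      exact red_some_of_not_mem h hΔ hxy hx

end Red


section Add

variable [DecidableEq K] [DecidableEq (IsLocalRing.ResidueField A)]
omit [DecidableEq K] [DecidableEq (IsLocalRing.ResidueField A)] in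
theorem red_some_eq (h : IsRed A WK Wk) (hΔ : Wk.Δ ≠ 0) {x y : K} (hxy : WK.toAffine.Nonsingular x y) {X Y : A}
    (hX : (X : K) = x) (hY : (Y : K) = y) :
    ∃ hns : Wk.toAffine.Nonsingular (rho A X) (rho A Y),
      red h hΔ (Affine.Point.some x y hxy) = Affine.Point.some (rho A X) (rho A Y) hns := by
  subst hX; subst hY
  exact ⟨_, red_some_coe h hΔ hxy⟩

omit [DecidableEq K] [DecidableEq (IsLocalRing.ResidueField A)] in
theorem coe_negY (h : IsRed A WK Wk) (X Y : A) :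
    ∃ Z : A, (Z : K) = WK.toAffine.negY (X : K) (Y : K) ∧
      rho A Z = Wk.toAffine.negY (rho A X) (rho A Y) := by
  obtain ⟨h1, e1⟩ := h.a₁
  obtain ⟨h3, e3⟩ := h.a₃
  refine ⟨-Y - (⟨WK.a₁, h1⟩ : A) * X - (⟨WK.a₃, h3⟩ : A), ?_, ?_⟩
  · rw [Affine.negY]; push_cast; rfl
  · rw [Affine.negY]
    simp only [map_sub, map_neg, map_mul, e1, e3]

omit [DecidableEq K] [DecidableEq (IsLocalRing.ResidueField A)] in
theorem coe_addX (h : IsRed A WK Wk) (X₁ X₂ L : A) :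
    ∃ Z : A, (Z : K) = WK.toAffine.addX (X₁ : K) (X₂ : K) (L : K) ∧
      rho A Z = Wk.toAffine.addX (rho A X₁) (rho A X₂) (rho A L) := by
  obtain ⟨h1, e1⟩ := h.a₁
  obtain ⟨h2, e2⟩ := h.a₂
  refine ⟨L ^ 2 + (⟨WK.a₁, h1⟩ : A) * L - (⟨WK.a₂, h2⟩ : A) - X₁ - X₂, ?_, ?_⟩
  · rw [Affine.addX]; push_cast; rfl
  · rw [Affine.addX]
    simp only [map_sub, map_add, map_pow, map_mul, e1, e2]

omit [DecidableEq K] [DecidableEq (IsLocalRing.ResidueField A)] in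
theorem coe_addY (h : IsRed A WK Wk) (X₁ X₂ Y₁ L : A) :
    ∃ Z : A, (Z : K) = WK.toAffine.addY (X₁ : K) (X₂ : K) (Y₁ : K) (L : K) ∧
      rho A Z = Wk.toAffine.addY (rho A X₁) (rho A X₂) (rho A Y₁) (rho A L) := by
  obtain ⟨X₃, hX₃, hX₃ρ⟩ := coe_addX h X₁ X₂ L
  obtain ⟨Z, hZ, hZρ⟩ := coe_negY h X₃ (L * (X₃ - X₁) + Y₁)
  refine ⟨Z, ?_, ?_⟩
  · rw [hZ, Affine.addY, Affine.negAddY, ← hX₃]; push_cast; rfl
  · rw [hZρ, Affine.addY, Affine.negAddY, ← hX₃ρ]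
    simp only [map_sub, map_add, map_mul]

/-- Opposite reductions are detected in `K`. -/
theorem not_opposite_of_red (h : IsRed A WK Wk) {X₁ Y₁ X₂ Y₂ : A}
    (hne : ¬(rho A X₁ = rho A X₂ ∧ rho A Y₁ = Wk.toAffine.negY (rho A X₂) (rho A Y₂))) :
    ¬((X₁ : K) = X₂ ∧ (Y₁ : K) = WK.toAffine.negY X₂ Y₂) := by
  rintro ⟨hx, hy⟩
  apply hne
  have hX : X₁ = X₂ := Subtype.ext hx
  obtain ⟨Z, hZ, hZρ⟩ := coe_negY h X₂ Y₂
  have hY : Y₁ = Z := Subtype.ext (by rw [hZ, hy])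
  exact ⟨by rw [hX], by rw [hY, hZρ]⟩

/-- **Chord/tangent reduction**: if the reductions of two integral points are not opposite, the
sum is integral and `red` is additive on the pair. -/
theorem red_add_of_ne (h : IsRed A WK Wk) (hΔ : Wk.Δ ≠ 0) {X₁ Y₁ X₂ Y₂ : A} (h₁ : WK.toAffine.Nonsingular (X₁ : K) (Y₁ : K))
    (h₂ : WK.toAffine.Nonsingular (X₂ : K) (Y₂ : K))
    (hne : ¬(rho A X₁ = rho A X₂ ∧ rho A Y₁ = Wk.toAffine.negY (rho A X₂) (rho A Y₂))) :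
    red h hΔ (Affine.Point.some _ _ h₁ + Affine.Point.some _ _ h₂) =
        red h hΔ (Affine.Point.some _ _ h₁) + red h hΔ (Affine.Point.some _ _ h₂) ∧
      ∃ (X₃ Y₃ : A) (h₃ : WK.toAffine.Nonsingular (X₃ : K) (Y₃ : K)),
        Affine.Point.some _ _ h₁ + Affine.Point.some _ _ h₂ = Affine.Point.some _ _ h₃ := by
  have hneK := not_opposite_of_red h hne
  obtain ⟨L, hLK, hLρ⟩ := slope_red h h₁.1 h₂.1 hne
  obtain ⟨X₃, hX₃, hX₃ρ⟩ := coe_addX h X₁ X₂ L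
  obtain ⟨Y₃, hY₃, hY₃ρ⟩ := coe_addY h X₁ X₂ Y₁ L
  rw [hLK] at hX₃ hY₃
  rw [hLρ] at hX₃ρ hY₃ρ
  have hsum : Affine.Point.some _ _ h₁ + Affine.Point.some _ _ h₂ =
      Affine.Point.some (X₃ : K) (Y₃ : K)
        (by rw [hX₃, hY₃]; exact Affine.nonsingular_add h₁ h₂ hneK) := by
    rw [Affine.Point.add_some hneK]
    exact some_congr _ _ hX₃.symm hY₃.symm
  refine ⟨?_, X₃, Y₃, _, hsum⟩
  rw [hsum, red_some_coe, red_some_coe, red_some_coe, Affine.Point.add_some hne]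
  exact some_congr _ _ hX₃ρ hY₃ρ


omit [DecidableEq K] [DecidableEq (IsLocalRing.ResidueField A)] in
theorem coe_mem_nonunits_iff_rho {Z : A} : (Z : K) ∈ A.nonunits ↔ rho A Z = 0 := by
  rw [ValuationSubring.coe_mem_nonunits_iff]
  exact (IsLocalRing.residue_eq_zero_iff Z).symm

omit [DecidableEq K] [DecidableEq (IsLocalRing.ResidueField A)] in
/-- `red` commutes with negation. -/
theorem red_neg (h : IsRed A WK Wk) (hΔ : Wk.Δ ≠ 0) (P : WK.toAffine.Point) :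
    red h hΔ (-P) = -red h hΔ P := by
  rcases P with _ | ⟨x, y, hxy⟩
  · rfl
  · rw [Affine.Point.neg_some]
    by_cases hx : x ∈ A
    · obtain ⟨X, rfl⟩ : ∃ X : A, (X : K) = x := ⟨⟨x, hx⟩, rfl⟩
      obtain ⟨Y, rfl⟩ : ∃ Y : A, (Y : K) = y := ⟨⟨y, y_mem_of_x_mem h hxy.1 hx⟩, rfl⟩
      obtain ⟨Z, hZ, hZρ⟩ := coe_negY h X Y
      obtain ⟨hns, e⟩ := red_some_eq h hΔ ((Affine.nonsingular_neg ..).mpr hxy) rfl hZ
      rw [e, red_some_coe, Affine.Point.neg_some]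
      exact some_congr _ _ rfl hZρ
    · rw [red_some_of_not_mem h hΔ _ hx, red_some_of_not_mem h hΔ _ hx]
      rfl

/-- **Opposite reductions**: if the reductions of two integral points are opposite, their sum lies
in the kernel of reduction. -/
theorem add_mem_kerRed_of_opposite (h : IsRed A WK Wk) (hΔ : Wk.Δ ≠ 0) {X₁ Y₁ X₂ Y₂ : A}
    (h₁ : WK.toAffine.Nonsingular (X₁ : K) (Y₁ : K))
    (h₂ : WK.toAffine.Nonsingular (X₂ : K) (Y₂ : K))
    (hopp : rho A X₁ = rho A X₂ ∧ rho A Y₁ = Wk.toAffine.negY (rho A X₂) (rho A Y₂)) :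
    Affine.Point.some _ _ h₁ + Affine.Point.some _ _ h₂ ∈
      Fermat.Agent.H26.kerRed h.isIntegralAt := by
  obtain ⟨Z, hZ, hZρ⟩ := coe_negY h X₂ Y₂
  have hQ : Affine.Point.some _ _ h₂ =
      -Affine.Point.some (X₂ : K) (Z : K)
        (by rw [hZ]; exact (Affine.nonsingular_neg ..).mpr h₂) := by
    rw [Affine.Point.neg_some]
    refine some_congr _ _ rfl ?_
    rw [hZ, Affine.negY_negY]
  rw [hQ, ← sub_eq_add_neg]
  have hnsk : Wk.toAffine.Nonsingular (rho A X₂) (rho A Z) := by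
    rw [hZρ]
    exact (Affine.nonsingular_neg ..).mpr
      ((Affine.equation_iff_nonsingular_of_Δ_ne_zero hΔ).1 (equation_red h h₂.1))
  obtain ⟨h1, e1⟩ := h.a₁
  obtain ⟨h2, e2⟩ := h.a₂
  obtain ⟨h3, e3⟩ := h.a₃
  obtain ⟨h4, e4⟩ := h.a₄
  have hns : WK.a₁ * (Z : K) - (3 * (X₂ : K) ^ 2 + 2 * WK.a₂ * X₂ + WK.a₄) ∉ A.nonunits ∨
      2 * (Z : K) + WK.a₁ * X₂ + WK.a₃ ∉ A.nonunits := by
    rcases ((Affine.nonsingular_iff' _ _).1 hnsk).2 with hh | hh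
    · left
      have e : WK.a₁ * (Z : K) - (3 * (X₂ : K) ^ 2 + 2 * WK.a₂ * X₂ + WK.a₄) =
          (((⟨WK.a₁, h1⟩ : A) * Z - (3 * X₂ ^ 2 + 2 * (⟨WK.a₂, h2⟩ : A) * X₂
            + (⟨WK.a₄, h4⟩ : A)) : A) : K) := by
        push_cast; rfl
      rw [e, coe_mem_nonunits_iff_rho]
      simp only [map_sub, map_add, map_mul, map_pow, e1, e2, e4, map_ofNat]
      exact hh
    · right
      have e : 2 * (Z : K) + WK.a₁ * X₂ + WK.a₃ =
          ((2 * Z + (⟨WK.a₁, h1⟩ : A) * X₂ + (⟨WK.a₃, h3⟩ : A) : A) : K) := by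
        push_cast; rfl
      rw [e, coe_mem_nonunits_iff_rho]
      simp only [map_add, map_mul, e1, e3, map_ofNat]
      exact hh
  have hx : (X₁ : K) - X₂ ∈ A.nonunits := by
    have e : (X₁ : K) - X₂ = ((X₁ - X₂ : A) : K) := by push_cast; rfl
    rw [e, coe_mem_nonunits_iff_rho, map_sub, hopp.1, sub_self]
  have hy : (Y₁ : K) - Z ∈ A.nonunits := by
    have e : (Y₁ : K) - Z = ((Y₁ - Z : A) : K) := by push_cast; rfl
    rw [e, coe_mem_nonunits_iff_rho, map_sub, hopp.2, hZρ, sub_self]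
  rcases sub_eq_zero_or_X_not_mem_of_reduction_eq A WK h1 h2 h3 h4 h₁
      (by rw [hZ]; exact (Affine.nonsingular_neg ..).mpr h₂) X₁.2 X₂.2 Z.2 hx hy hns with h0 | h0
  · rw [h0]; exact zero_mem _
  · obtain ⟨x₃, y₃, h₃, e, hx₃⟩ := h0
    rw [e, Fermat.Agent.H26.some_mem_kerRed, Fermat.Agent.H26.one_lt_valuation_iff]
    exact hx₃


/-- Adding a point of the kernel of reduction does not change the reduction. -/
theorem red_add_of_mem_kerRed (h : IsRed A WK Wk) (hΔ : Wk.Δ ≠ 0) {P Q : WK.toAffine.Point}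
    (hP : P ∈ Fermat.Agent.H26.kerRed h.isIntegralAt) :
    red h hΔ (P + Q) = red h hΔ Q := by
  by_cases hQ : Q ∈ Fermat.Agent.H26.kerRed h.isIntegralAt
  · rw [(red_eq_zero_iff h hΔ _).2 hQ, (red_eq_zero_iff h hΔ _).2 (add_mem hP hQ)]
  have hR : P + Q ∉ Fermat.Agent.H26.kerRed h.isIntegralAt := by
    intro hR
    apply hQ
    have : Q = (P + Q) - P := by abel
    rw [this]
    exact sub_mem hR hP
  -- both `R := P + Q` and `Q` are integral affine points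
  obtain ⟨R, hRdef⟩ : ∃ R, R = P + Q := ⟨_, rfl⟩
  rw [← hRdef] at hR ⊢
  rcases Q with _ | ⟨x₂, y₂, h₂⟩
  · exact absurd (zero_mem _) hQ
  rcases R with _ | ⟨x₃, y₃, h₃⟩
  · exact absurd (zero_mem _) hR
  rw [Fermat.Agent.H26.some_mem_kerRed, Fermat.Agent.H26.one_lt_valuation_iff, not_not] at hQ hR
  obtain ⟨X₂, rfl⟩ : ∃ X : A, (X : K) = x₂ := ⟨⟨x₂, hQ⟩, rfl⟩
  obtain ⟨Y₂, rfl⟩ : ∃ Y : A, (Y : K) = y₂ := ⟨⟨y₂, y_mem_of_x_mem h h₂.1 hQ⟩, rfl⟩
  obtain ⟨X₃, rfl⟩ : ∃ X : A, (X : K) = x₃ := ⟨⟨x₃, hR⟩, rfl⟩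
  obtain ⟨Y₃, rfl⟩ : ∃ Y : A, (Y : K) = y₃ := ⟨⟨y₃, y_mem_of_x_mem h h₃.1 hR⟩, rfl⟩
  -- `-Q = (X₂, Z)`
  obtain ⟨Z, hZ, hZρ⟩ := coe_negY h X₂ Y₂
  have hnQ : -Affine.Point.some _ _ h₂ = Affine.Point.some (X₂ : K) (Z : K)
      (by rw [hZ]; exact (Affine.nonsingular_neg ..).mpr h₂) := by
    rw [Affine.Point.neg_some]
    exact some_congr _ _ rfl hZ.symm
  rw [red_some_coe, red_some_coe]
  by_contra hne
  -- the reductions of `R` and `-Q` are not opposite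
  have hne' : ¬(rho A X₃ = rho A X₂ ∧ rho A Y₃ = Wk.toAffine.negY (rho A X₂) (rho A Z)) := by
    rintro ⟨hx, hy⟩
    apply hne
    refine some_congr _ _ hx ?_
    rw [hy, hZρ, Affine.negY_negY]
  obtain ⟨-, X₄, Y₄, h₄, e⟩ := red_add_of_ne h hΔ h₃
    (by rw [hZ]; exact (Affine.nonsingular_neg ..).mpr h₂) hne'
  have hPe : P = Affine.Point.some _ _ h₄ := by
    rw [← e, ← hnQ, hRdef]; abel
  rw [hPe, Fermat.Agent.H26.some_mem_kerRed, Fermat.Agent.H26.one_lt_valuation_iff] at hP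
  exact hP X₄.2

/-- **The reduction map is additive.** -/
theorem red_add (h : IsRed A WK Wk) (hΔ : Wk.Δ ≠ 0) (P Q : WK.toAffine.Point) :
    red h hΔ (P + Q) = red h hΔ P + red h hΔ Q := by
  by_cases hP : P ∈ Fermat.Agent.H26.kerRed h.isIntegralAt
  · rw [red_add_of_mem_kerRed h hΔ hP, (red_eq_zero_iff h hΔ _).2 hP, zero_add]
  by_cases hQ : Q ∈ Fermat.Agent.H26.kerRed h.isIntegralAt
  · rw [add_comm P Q, red_add_of_mem_kerRed h hΔ hQ, (red_eq_zero_iff h hΔ _).2 hQ, add_zero]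
  rcases P with _ | ⟨x₁, y₁, h₁⟩
  · exact absurd (zero_mem _) hP
  rcases Q with _ | ⟨x₂, y₂, h₂⟩
  · exact absurd (zero_mem _) hQ
  rw [Fermat.Agent.H26.some_mem_kerRed, Fermat.Agent.H26.one_lt_valuation_iff, not_not] at hP hQ
  obtain ⟨X₁, rfl⟩ : ∃ X : A, (X : K) = x₁ := ⟨⟨x₁, hP⟩, rfl⟩
  obtain ⟨Y₁, rfl⟩ : ∃ Y : A, (Y : K) = y₁ := ⟨⟨y₁, y_mem_of_x_mem h h₁.1 hP⟩, rfl⟩
  obtain ⟨X₂, rfl⟩ : ∃ X : A, (X : K) = x₂ := ⟨⟨x₂, hQ⟩, rfl⟩
  obtain ⟨Y₂, rfl⟩ : ∃ Y : A, (Y : K) = y₂ := ⟨⟨y₂, y_mem_of_x_mem h h₂.1 hQ⟩, rfl⟩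
  by_cases hopp : rho A X₁ = rho A X₂ ∧ rho A Y₁ = Wk.toAffine.negY (rho A X₂) (rho A Y₂)
  · rw [(red_eq_zero_iff h hΔ _).2 (add_mem_kerRed_of_opposite h hΔ h₁ h₂ hopp), red_some_coe,
      red_some_coe, Affine.Point.add_of_Y_eq hopp.1 hopp.2]
  · exact (red_add_of_ne h hΔ h₁ h₂ hopp).1

/-- The reduction map as a group homomorphism. -/
noncomputable def redHom (h : IsRed A WK Wk) (hΔ : Wk.Δ ≠ 0) :
    WK.toAffine.Point →+ Wk.toAffine.Point where
  toFun := red h hΔ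
  map_zero' := rfl
  map_add' := red_add h hΔ

@[simp] theorem redHom_apply (h : IsRed A WK Wk) (hΔ : Wk.Δ ≠ 0) (P : WK.toAffine.Point) :
    redHom h hΔ P = red h hΔ P := rfl

theorem redHom_ker (h : IsRed A WK Wk) (hΔ : Wk.Δ ≠ 0) :
    (redHom h hΔ).ker = Fermat.Agent.H26.kerRed h.isIntegralAt := by
  ext P
  rw [AddMonoidHom.mem_ker, redHom_apply, red_eq_zero_iff]

/-- **Injectivity on torsion**: a point killed by an integer `m` which is a unit of `A` and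
with trivial reduction is trivial. -/
theorem eq_zero_of_red_eq_zero_of_nsmul (h : IsRed A WK Wk) (hΔ : Wk.Δ ≠ 0)
    {P : WK.toAffine.Point} {m : ℕ} (hm : A.valuation (m : K) = 1) (hmP : m • P = 0)
    (hP : red h hΔ P = 0) : P = 0 :=
  Fermat.Agent.H26.eq_zero_of_nsmul_eq_zero h.isIntegralAt
    ((Fermat.Agent.H26.mem_kerRed _).1 ((red_eq_zero_iff h hΔ P).1 hP)) hm hmP

end Add

end Fermat.Agent.H8.RedHom
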