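import Fermat.Agent.H53.S14T.Interfaces
import Fermat.Agent.H8.RelGalois

/-!
# P-S14, block T: `TransitiveStatement` (T-P1) and `InertiaCorrectionStatement` (T-P2)

Both are special cases of the relative decomposition theory of `Fermat.Agent.H8.RelGalois`
for the closed subgroup `L.fixingSubgroup` of `Gal(ℚ̄/ℚ)`.
-/

set_option autoImplicit false
set_option linter.style.haveILetI false

namespace Fermat.Agent.H8

open Fermat.Agent.H53
open scoped Pointwise

section

variable {F : Type*} [Field F] [Algebra ℚ F]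

/-- Two valuation subrings with the same elements in an intermediate field have the same
nonunits there. -/
theorem mem_nonunits_iff_of_mem_iff (L : IntermediateField ℚ F) (A A' : ValuationSubring F)
    (h : ∀ y ∈ L, y ∈ A' ↔ y ∈ A) {y : F} (hy : y ∈ L) : y ∈ A'.nonunits ↔ y ∈ A.nonunits := by
  rw [ValuationSubring.mem_nonunits_iff_or, ValuationSubring.mem_nonunits_iff_or,
    h y⁻¹ (L.inv_mem hy)]

theorem mem_of_forall_fixingSubgroup [IsGalois ℚ F] (L : IntermediateField ℚ F) {x : F}
    (hx : ∀ g ∈ L.fixingSubgroup, g x = x) : x ∈ L := by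
  rw [← InfiniteGalois.fixedField_fixingSubgroup L, IntermediateField.mem_fixedField_iff]
  exact hx

end

/-- **T-P1.** -/
theorem transitiveStatement : TransitiveStatement := by
  intro L A A' ℓ hℓ hA hAA'
  haveI := isGalois_algebraicClosure_rat
  have hA' : ((ℓ : ℕ) : AlgebraicClosure ℚ) ∈ A'.nonunits :=
    (mem_nonunits_iff_of_mem_iff L A A' hAA' (natCast_mem L ℓ)).mpr hA
  obtain ⟨g, hg, hgA⟩ := exists_mem_smul_eq L.fixingSubgroup
    (InfiniteGalois.fixingSubgroup_isClosed L) hℓ A' A hA' hA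
    (fun x hx => mem_nonunits_iff_of_mem_iff L A A' hAA' (mem_of_forall_fixingSubgroup L hx))
  refine ⟨g, (IntermediateField.mem_fixingSubgroup_iff L g).mp hg, fun x => ?_⟩
  rw [← hgA, ValuationSubring.mem_pointwise_smul_iff_inv_smul_mem, AlgEquiv.smul_def,
    ← AlgEquiv.mul_apply, inv_mul_cancel, AlgEquiv.one_apply]

/-- **T-P2.** -/
theorem inertiaCorrectionStatement : InertiaCorrectionStatement := by
  intro L A ℓ hℓ hA σ hσ hres
  haveI := isGalois_algebraicClosure_rat
  obtain ⟨δ, hδL, hδD, hδ⟩ := exists_mem_residue_eq L.fixingSubgroup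
    (InfiniteGalois.fixingSubgroup_isClosed L) hℓ A hA σ hσ
    (fun x hxA hx => hres x (mem_of_forall_fixingSubgroup L hx) hxA)
  refine ⟨δ, (IntermediateField.mem_fixingSubgroup_iff L δ).mp hδL, hδD,
    mem_inertiaSubgroupIn_of_forall A (mul_mem (inv_mem hδD) hσ) fun x hx => ?_⟩
  have h1 : δ⁻¹ (σ x - δ x) ∈ A.nonunits := by
    rw [apply_mem_nonunits_iff_of_mem_decomposition A (inv_mem hδD)]
    have h2 : σ x - δ x = -(δ x - σ x) := by ring
    rw [h2]
    exact neg_mem (hδ x hx)
  have h3 : (δ⁻¹ * σ) x - x = δ⁻¹ (σ x - δ x) := by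
    rw [map_sub, AlgEquiv.mul_apply]
    congr 1
    show x = δ⁻¹ (δ x)
    rw [← AlgEquiv.mul_apply, inv_mul_cancel, AlgEquiv.one_apply]
  rw [h3]
  exact h1

end Fermat.Agent.H8
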