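import Fermat.Agent.H8.InertiaReduction

set_option autoImplicit false

/-!
# Inertia acts trivially on prime-to-residue-characteristic torsion: short model assembly

For a short Weierstrass model `y² = x³ + a x² + b x` defined over a field `S`, base-changed to
an extension `K` with a valuation subring `A` in which `2` is a unit, we assemble

* `hF1`: the kernel of reduction has no `p`-torsion,
* F2 / FS (`Fermat.Agent.H8.InertiaReduction`),
* in the multiplicative case a "node valuation" hypothesis for `p`-torsion points,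

into the statement that the inertia group of `A` fixes every `p`-torsion point.
-/

namespace Fermat.Agent.H8

open WeierstrassCurve WeierstrassCurve.Affine WeierstrassCurve.Affine.Point

universe s v

variable {S : Type s} {K : Type v} [Field S] [Field K]

/-- The resultant identity for `f = X³ + aX² + bX`. -/
theorem short_disc_identity (a b X : K) :
    ((-6 * a ^ 2 + 18 * b) * X + (-4 * a ^ 3 + 15 * a * b)) * (X ^ 3 + a * X ^ 2 + b * X) +
      ((2 * a ^ 2 - 6 * b) * X ^ 2 + a * (2 * a ^ 2 - 7 * b) * X + b * (a ^ 2 - 4 * b)) *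
        (3 * X ^ 2 + 2 * a * X + b) = b ^ 2 * (a ^ 2 - 4 * b) := by
  ring

section

variable (A : ValuationSubring K)

theorem mul_mem_nonunits_left {x y : K} (hx : x ∈ A) (hy : y ∈ A.nonunits) :
    x * y ∈ A.nonunits := by
  rw [ValuationSubring.mem_nonunits_iff] at hy ⊢
  rw [map_mul]
  have := (val_le_one_iff A).2 hx
  calc A.valuation x * A.valuation y ≤ 1 * A.valuation y := by gcongr
    _ = A.valuation y := one_mul _
    _ < 1 := hy

theorem mul_mem_nonunits_right {x y : K} (hx : x ∈ A.nonunits) (hy : y ∈ A) :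
    x * y ∈ A.nonunits := by
  rw [mul_comm]; exact mul_mem_nonunits_left A hy hx

theorem nonunits_subset {x : K} (hx : x ∈ A.nonunits) : x ∈ A :=
  (val_le_one_iff A).1 (le_of_lt ((val_lt_one_iff A).2 hx))

theorem two_mem : (2 : K) ∈ A := by
  have : (2 : K) = 1 + 1 := by norm_num
  rw [this]; exact A.add_mem _ _ A.one_mem A.one_mem

theorem ofNat_mem (n : ℕ) : (n : K) ∈ A := by
  induction n with
  | zero => simp
  | succ n ih => push_cast; exact A.add_mem _ _ ih A.one_mem

/-- If `y ^ 2 ∈ A` then `y ∈ A`. -/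
theorem mem_of_sq_mem {y : K} (hy : y ^ 2 ∈ A) : y ∈ A := by
  rw [← val_le_one_iff] at hy ⊢
  rw [map_pow] at hy
  by_contra h
  rw [not_le] at h
  exact absurd hy (not_le.2 (one_lt_pow₀ h two_ne_zero))

/-- If `y ^ 2 ∈ 𝔪` then `y ∈ 𝔪`. -/
theorem mem_nonunits_of_sq_mem {y : K} (hy : y ^ 2 ∈ A.nonunits) : y ∈ A.nonunits := by
  rw [← val_lt_one_iff] at hy ⊢
  rw [map_pow] at hy
  by_contra h
  rw [not_lt] at h
  exact absurd hy (not_lt.2 (one_le_pow₀ h))

/-- If `x y ∈ 𝔪` with `x ∈ A`, `y ∈ A`, then `x ∈ 𝔪` or `y ∈ 𝔪`. -/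
theorem mem_nonunits_or_of_mul_mem {x y : K} (hx : x ∈ A) (hy : y ∈ A)
    (hxy : x * y ∈ A.nonunits) : x ∈ A.nonunits ∨ y ∈ A.nonunits := by
  by_contra h
  rw [not_or] at h
  have h1 := val_eq_one_of_mem_of_not_nonunit A hx h.1
  have h2 := val_eq_one_of_mem_of_not_nonunit A hy h.2
  rw [← val_lt_one_iff, map_mul, h1, h2, mul_one] at hxy
  exact lt_irrefl _ hxy

end


section main

variable [DecidableEq K] [Algebra S K]

/-- **Assembly for the short model.**  Let `W' : y² = x³ + a x² + b x` over `S`, and let `A` be a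
valuation subring of `K ⊇ S` in which `2` is a unit and `a, b` are integral.  Assume
* `hF1`: a point with non-integral `x`-coordinate is not killed by `p`;
* either the discriminant `b² (a² - 4 b)` is a unit (good reduction), or `a` is a unit, `b ∈ 𝔪` and every
  `p`-torsion point `(x, y)` with `x ∈ 𝔪` satisfies `|b| < |x| = |t|` for some `t ∈ S`
  (multiplicative reduction, node at the origin).
Then the inertia group of `A` fixes every `p`-torsion point of `W'` over `K`. -/
theorem inertia_fixes_torsion_short (A : ValuationSubring K) (W' : Affine S)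
    (h₁ : W'.a₁ = 0) (h₃ : W'.a₃ = 0) (h₆ : W'.a₆ = 0)
    (h2 : (2 : K) ∉ A.nonunits)
    (ha : algebraMap S K W'.a₂ ∈ A) (hb : algebraMap S K W'.a₄ ∈ A) (p : ℕ)
    (hF1 : ∀ (x y : K) (h : (W'⁄K).Nonsingular x y), x ∉ A →
      (p : ℤ) • (Point.some x y h : (W'⁄K).Point) ≠ 0)
    (hcase : algebraMap S K (W'.a₄ ^ 2 * (W'.a₂ ^ 2 - 4 * W'.a₄)) ∉ A.nonunits ∨
      (algebraMap S K W'.a₂ ∉ A.nonunits ∧ algebraMap S K W'.a₄ ∈ A.nonunits ∧
        ∀ (x y : K) (h : (W'⁄K).Nonsingular x y), x ∈ A.nonunits →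
          (p : ℤ) • (Point.some x y h : (W'⁄K).Point) = 0 →
          ∃ t : S, A.valuation (algebraMap S K t) = A.valuation x ∧
            A.valuation (algebraMap S K W'.a₄) < A.valuation x))
    {σ : K ≃ₐ[S] K} (hσ : σ ∈ A.inertiaSubgroupIn S)
    (P : (W'⁄K).Point) (hP : (p : ℤ) • P = 0) : σ • P = P := by
  classical
  -- coefficients of the base-changed curve
  have e₁ : (W'⁄K).a₁ = 0 := by
    show algebraMap S K W'.a₁ = 0
    rw [h₁, _root_.map_zero]
  have e₂ : (W'⁄K).a₂ = algebraMap S K W'.a₂ := rfl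
  have e₃ : (W'⁄K).a₃ = 0 := by
    show algebraMap S K W'.a₃ = 0
    rw [h₃, _root_.map_zero]
  have e₄ : (W'⁄K).a₄ = algebraMap S K W'.a₄ := rfl
  have e₆ : (W'⁄K).a₆ = 0 := by
    show algebraMap S K W'.a₆ = 0
    rw [h₆, _root_.map_zero]
  set a : K := algebraMap S K W'.a₂ with hadef
  set b : K := algebraMap S K W'.a₄ with hbdef
  have ha₁ : (W'⁄K).a₁ ∈ A := by rw [e₁]; exact A.zero_mem
  have ha₂ : (W'⁄K).a₂ ∈ A := by rw [e₂]; exact ha
  have ha₃ : (W'⁄K).a₃ ∈ A := by rw [e₃]; exact A.zero_mem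
  have ha₄ : (W'⁄K).a₄ ∈ A := by rw [e₄]; exact hb
  have h2A : (2 : K) ∈ A := two_mem A
  have h3A : (3 : K) ∈ A := by simp
  have h2v : A.valuation (2 : K) = 1 := val_eq_one_of_mem_of_not_nonunit A h2A h2
  -- it suffices to show that `D = σ • P - P` is zero or in the kernel of reduction
  suffices hD : σ • P - P = 0 ∨ ∃ (x₃ y₃ : K) (h₃ : (W'⁄K).Nonsingular x₃ y₃),
      σ • P - P = Point.some x₃ y₃ h₃ ∧ x₃ ∉ A by
    have hpD : (p : ℤ) • (σ • P - P) = 0 := by
      rw [smul_sub, ← algEquiv_smul_zsmul, hP, smul_zero, sub_zero]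
    rcases hD with hD | ⟨x₃, y₃, h₃, hD, hx₃⟩
    · exact sub_eq_zero.1 hD
    · rw [hD] at hpD
      exact absurd hpD (hF1 x₃ y₃ h₃ hx₃)
  rcases P with _ | ⟨x, y, h⟩
  · left
    show σ • (0 : (W'⁄K).Point) - 0 = 0
    rw [algEquiv_smul_zero, sub_zero]
  -- the equation
  have heq : y ^ 2 = x ^ 3 + a * x ^ 2 + b * x := by
    have := (equation_iff (W := (W'⁄K)) x y).1 h.1
    rw [e₁, e₃, e₆, e₂, e₄] at this
    linear_combination this
  by_cases hxA : x ∈ A
  swap
  · exact absurd hP (hF1 x y h hxA)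
  have hfA : x ^ 3 + a * x ^ 2 + b * x ∈ A :=
    A.add_mem _ _ (A.add_mem _ _ (pow_mem hxA 3) (A.mul_mem _ _ ha (pow_mem hxA 2)))
      (A.mul_mem _ _ hb hxA)
  have hyA : y ∈ A := mem_of_sq_mem A (by rw [heq]; exact hfA)
  by_cases hns : (W'⁄K).a₁ * y - (3 * x ^ 2 + 2 * (W'⁄K).a₂ * x + (W'⁄K).a₄) ∉ A.nonunits ∨
      2 * y + (W'⁄K).a₁ * x + (W'⁄K).a₃ ∉ A.nonunits
  · exact inertia_smul_sub_of_nonsingular_reduction A ha₁ ha₂ ha₃ ha₄ hσ h hxA hyA hns
  -- singular reduction
  rw [not_or, not_not, not_not, e₁, e₂, e₃, e₄] at hns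
  obtain ⟨hWX, hWY⟩ := hns
  have hf' : 3 * x ^ 2 + 2 * a * x + b ∈ A.nonunits := by
    have : 3 * x ^ 2 + 2 * a * x + b = -(0 * y - (3 * x ^ 2 + 2 * a * x + b)) := by ring
    rw [this]; exact neg_mem hWX
  have hy𝔪 : y ∈ A.nonunits := by
    have h2y : 2 * y ∈ A.nonunits := by
      have : 2 * y = 2 * y + 0 * x + 0 := by ring
      rw [this]; exact hWY
    rw [← val_lt_one_iff] at h2y ⊢
    rwa [map_mul, h2v, one_mul] at h2y
  have hf : x ^ 3 + a * x ^ 2 + b * x ∈ A.nonunits := by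
    rw [← heq, pow_two]
    exact mul_mem_nonunits_left A hyA hy𝔪
  rcases hcase with hgood | ⟨haunit, hb𝔪, hnode⟩
  · -- good reduction: contradiction with the discriminant being a unit
    exfalso
    apply hgood
    have hid := short_disc_identity a b x
    have hmap : algebraMap S K (W'.a₄ ^ 2 * (W'.a₂ ^ 2 - 4 * W'.a₄)) =
        b ^ 2 * (a ^ 2 - 4 * b) := by
      simp only [map_mul, map_pow, map_sub, map_ofNat, hadef, hbdef]
    rw [hmap, ← hid]
    have hu : (-6 * a ^ 2 + 18 * b) * x + (-4 * a ^ 3 + 15 * a * b) ∈ A := by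
      have h6 : (6 : K) ∈ A := by simp
      have h18 : (18 : K) ∈ A := by simp
      have h4 : (4 : K) ∈ A := by simp
      have h15 : (15 : K) ∈ A := by simp
      refine A.add_mem _ _ (A.mul_mem _ _ (A.add_mem _ _ (A.mul_mem _ _ (neg_mem h6)
        (pow_mem ha 2)) (A.mul_mem _ _ h18 hb)) hxA) (A.add_mem _ _
        (A.mul_mem _ _ (neg_mem h4) (pow_mem ha 3)) (A.mul_mem _ _ (A.mul_mem _ _ h15 ha) hb))
    have hv : (2 * a ^ 2 - 6 * b) * x ^ 2 + a * (2 * a ^ 2 - 7 * b) * x + b * (a ^ 2 - 4 * b)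
        ∈ A := by
      have h6 : (6 : K) ∈ A := by simp
      have h7 : (7 : K) ∈ A := by simp
      have h4 : (4 : K) ∈ A := by simp
      refine A.add_mem _ _ (A.add_mem _ _ (A.mul_mem _ _ (sub_mem (A.mul_mem _ _ h2A
        (pow_mem ha 2)) (A.mul_mem _ _ h6 hb)) (pow_mem hxA 2)) (A.mul_mem _ _ (A.mul_mem _ _ ha
        (sub_mem (A.mul_mem _ _ h2A (pow_mem ha 2)) (A.mul_mem _ _ h7 hb))) hxA))
        (A.mul_mem _ _ hb (sub_mem (pow_mem ha 2) (A.mul_mem _ _ h4 hb)))
    exact add_mem (mul_mem_nonunits_left A hu hf) (mul_mem_nonunits_left A hv hf')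
  · -- multiplicative reduction; first `b ∈ 𝔪` and `x ∈ 𝔪`
    have hav : A.valuation a = 1 := val_eq_one_of_mem_of_not_nonunit A ha haunit
    have hx𝔪 : x ∈ A.nonunits := by
      by_contra hxu
      have hxv : A.valuation x = 1 := val_eq_one_of_mem_of_not_nonunit A hxA hxu
      -- `x * (x ^ 2 + a x + b) ∈ 𝔪` so `x ^ 2 + a x + b ∈ 𝔪`
      have hq : x ^ 2 + a * x + b ∈ A.nonunits := by
        have hqA : x ^ 2 + a * x + b ∈ A :=
          A.add_mem _ _ (A.add_mem _ _ (pow_mem hxA 2) (A.mul_mem _ _ ha hxA)) hb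
        have : x * (x ^ 2 + a * x + b) ∈ A.nonunits := by
          have e : x * (x ^ 2 + a * x + b) = x ^ 3 + a * x ^ 2 + b * x := by ring
          rw [e]; exact hf
        exact (mem_nonunits_or_of_mul_mem A hxA hqA this).resolve_left hxu
      -- `f' - 2 (x² + a x + b) - ... `: `3x² + 2ax + b - (x² + ax + b) = x (2x + a)`
      have h1 : x * (2 * x + a) ∈ A.nonunits := by
        have e : x * (2 * x + a) = (3 * x ^ 2 + 2 * a * x + b) - (x ^ 2 + a * x + b) := by ring
        rw [e]; exact sub_mem hf' hq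
      have h2xa : 2 * x + a ∈ A.nonunits :=
        (mem_nonunits_or_of_mul_mem A hxA
          (A.add_mem _ _ (A.mul_mem _ _ h2A hxA) ha) h1).resolve_left hxu
      have h3 : x * (x + a) ∈ A.nonunits := by
        have e : x * (x + a) = (x ^ 2 + a * x + b) - b := by ring
        rw [e]; exact sub_mem hq hb𝔪
      have hxa : x + a ∈ A.nonunits :=
        (mem_nonunits_or_of_mul_mem A hxA (A.add_mem _ _ hxA ha) h3).resolve_left hxu
      apply hxu
      have e : x = (2 * x + a) - (x + a) := by ring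
      rw [e]; exact sub_mem h2xa hxa
    obtain ⟨t, ht, hbx⟩ := hnode x y h hx𝔪 hP
    have hx0 : x ≠ 0 := by
      rintro rfl
      rw [_root_.map_zero] at hbx
      exact not_lt_zero hbx
    have hxpos : 0 < A.valuation x := by rw [Valuation.pos_iff]; exact hx0
    have hxlt : A.valuation x < 1 := (val_lt_one_iff A).2 hx𝔪
    have ht0 : algebraMap S K t ≠ 0 := by
      intro h0
      rw [h0, _root_.map_zero] at ht
      exact hxpos.ne ht
    -- `|y| = |x|`
    have hyx : A.valuation y = A.valuation x := by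
      have hfac : y ^ 2 = x ^ 2 * (a + (x + b / x)) := by
        rw [heq]; field_simp; ring
      have hsmall : A.valuation (x + b / x) < 1 := by
        have hbx' : A.valuation (b / x) < 1 := by
          rw [map_div₀, div_lt_one₀ hxpos]; exact hbx
        exact lt_of_le_of_lt (Valuation.map_add _ _ _) (max_lt hxlt hbx')
      have hunit : A.valuation (a + (x + b / x)) = 1 := by
        rw [← hav]
        exact Valuation.map_add_eq_of_lt_left _ (by rw [hav]; exact hsmall)
      have hsq : A.valuation y ^ 2 = A.valuation x ^ 2 := by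
        rw [← map_pow, hfac, map_mul, hunit, mul_one, map_pow]
      exact (pow_left_inj₀ zero_le zero_le two_ne_zero).1 hsq
    refine inertia_smul_sub_of_scaled A ha₁ ha₂ hσ h hxA ht0 (by simp) ?_ ?_ ?_
    · rw [← val_le_one_iff, map_div₀, ht, div_self hxpos.ne']
    · rw [← val_le_one_iff, map_div₀, ht, hyx, div_self hxpos.ne']
    · rw [e₁, e₃, zero_mul, add_zero, add_zero, map_mul, h2v, one_mul, ht, hyx]

end main

end Fermat.Agent.H8
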